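import Fermat.Agent.TwoAdic.Module.Glue.Rep
import Fermat.Agent.RT.Glue.Transfer

/-!
# The residual representations at the points of a glued representation

At `p = 2` the twist is residually trivial, the reduction of the newform of a point has the traces
of `rb`, and it is absolutely irreducible when `rb` spans the matrices.
-/

set_option autoImplicit false

noncomputable section

open IsLocalRing Polynomial

namespace Fermat.Agent.TwoAdic.Module

open GaloisReps (AbsGal HeckeGaloisModel)
open RT.Glue (eq_zero_of_forall_integral isAbsolutelyIrreducible_of_trace_commutator)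

/-- Some commutator of a spanning family of matrices has nonzero trace against the family. -/
theorem exists_trace_commutator_of_span {k : Type} [Field k] {G : Type} [Group G]
    (r : G →* Matrix (Fin 2) (Fin 2) k) (h : Submodule.span k (Set.range r) = ⊤) :
    ∃ a b c : G, (r (a * b * c)).trace ≠ (r (b * a * c)).trace := by
  by_contra! hall
  have hmem : ∀ X : Matrix (Fin 2) (Fin 2) k, X ∈ Submodule.span k (Set.range r) := fun X => by
    rw [h]; trivial
  have h1 : ∀ a b, ∀ Z : Matrix (Fin 2) (Fin 2) k,
      (r a * r b * Z).trace = (r b * r a * Z).trace := fun a b Z => by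
    induction hmem Z using Submodule.span_induction with
    | mem Z hZ => obtain ⟨c, rfl⟩ := hZ; simpa only [map_mul] using hall a b c
    | zero => simp
    | add x y _ _ hx hy => simp only [mul_add, Matrix.trace_add, hx, hy]
    | smul t x _ hx => simp only [mul_smul_comm, Matrix.trace_smul, hx]
  have h2 : ∀ a, ∀ Y Z : Matrix (Fin 2) (Fin 2) k,
      (r a * Y * Z).trace = (Y * r a * Z).trace := fun a Y Z => by
    induction hmem Y using Submodule.span_induction with
    | mem Y hY => obtain ⟨b, rfl⟩ := hY; exact h1 a b Z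
    | zero => simp
    | add x y _ _ hx hy => simp only [mul_add, add_mul, Matrix.trace_add, hx, hy]
    | smul t x _ hx => simp only [mul_smul_comm, smul_mul_assoc, Matrix.trace_smul, hx]
  have h3 : ∀ X Y Z : Matrix (Fin 2) (Fin 2) k, (X * Y * Z).trace = (Y * X * Z).trace :=
    fun X Y Z => by
    induction hmem X using Submodule.span_induction with
    | mem X hX => obtain ⟨a, rfl⟩ := hX; exact h2 a Y Z
    | zero => simp
    | add x y _ _ hx hy => simp only [mul_add, add_mul, Matrix.trace_add, hx, hy]
    | smul t x _ hx => simp only [mul_smul_comm, smul_mul_assoc, Matrix.trace_smul, hx]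
  have := h3 (Matrix.single 0 1 1) (Matrix.single 1 0 1) (Matrix.single 0 0 1)
  simp [Matrix.trace_single_eq_same] at this

variable {O : Type} [CommRing O] [IsDomain O] [IsDiscreteValuationRing O]
  {p : ℕ} [Fact p.Prime]
  {L : ℕ} {Δ : Type} [CommGroup Δ] {ψ : (ZMod L)ˣ →* Δ} {S : Finset ℕ}
  {abar : ℕ → ResidueField O} {H : HeckeData L ψ S abar} {θK : H.algebra →+* KBar O}

instance (P : Point p H θK) : IsLocalHom (algebraMap O P.R) := by
  refine RingHom.IsIntegral.isLocalHom (algebraMap_isIntegral_iff.mpr inferInstance) fun a b h => ?_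
  have h' := congrArg P.j h
  rw [← RingHom.comp_apply, ← RingHom.comp_apply, P.j_algebraMap,
    IsScalarTower.algebraMap_apply O (FractionRing O) (KBar O),
    IsScalarTower.algebraMap_apply O (FractionRing O) (KBar O)] at h'
  exact IsFractionRing.injective O (FractionRing O) ((algebraMap (FractionRing O) _).injective h')

/-- At residual characteristic `2` the twist is residually trivial. -/
theorem Point.residue_et (P : Point p H θK) (hp2 : p = 2) (hΔ : IsPGroup p Δ) (u : (ZMod L)ˣ) :
    residue P.R (P.et u) = 1 := by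
  obtain ⟨k, hk⟩ := hΔ (ψ u)
  have h1 : P.et u ^ (2 * p ^ k) = 1 := P.j_injective (by
    rw [map_pow, pow_mul, P.et_sq, map_one, ← map_pow, ← map_pow, hk, map_one, map_one])
  have : CharP (ResidueField P.R) p := by
    refine (CharP.charP_iff_prime_eq_zero Fact.out).2 ?_
    rw [← map_natCast (residue P.R), residue_eq_zero_iff]
    exact P.p_mem
  have h2 : 2 * p ^ k = p ^ (k + 1) := by rw [pow_succ', hp2]
  rw [h2] at h1
  refine sub_eq_zero.1 (eq_zero_of_pow_eq_zero (n := p ^ (k + 1)) ?_)
  rw [sub_pow_char_pow, one_pow, sub_eq_zero, ← map_pow, h1, map_one]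

variable [IsAdicComplete (maximalIdeal O) O] [Finite (ResidueField O)] [CharZero O]
  [Finite Δ] [IsLocalRing H.algebra]

/-- Values of the maximal ideal at a point lie in the maximal ideal. -/
theorem mem_maximal_of_point (hp : (p : O) ∈ maximalIdeal O) (hΔ : IsPGroup p Δ)
    {θ : H.algebra →ₐ[O] KBar O} (P : Point p H θ.toRingHom)
    {x : H.algebra} (hx : x ∈ maximalIdeal H.algebra) {r : P.R} (hr : θ x = P.j r) :
    r ∈ maximalIdeal P.R := by
  by_contra h
  have hu : IsUnit r := not_not.1 h
  obtain ⟨s, hs⟩ := hu.exists_right_inv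
  obtain ⟨k, hk⟩ := exists_pow_le (H := H) hp hΔ
  obtain ⟨a, ha⟩ := Ideal.mem_span_singleton'.1 (hk (Ideal.pow_mem_pow hx k))
  refine one_ne_zero (α := KBar O) (eq_zero_of_forall_integral hp fun N => ?_)
  refine ⟨(θ a * P.j (s ^ k)) ^ N, ((isIntegral_point θ a).mul (P.isIntegral_j _)).pow N, ?_⟩
  rw [← mul_pow, ← mul_assoc, ← map_natCast θ, ← map_mul, mul_comm (p : H.algebra), ha, map_pow,
    hr, ← map_pow P.j r, ← map_mul, ← mul_pow, hs, one_pow, map_one, one_pow]

variable [NeZero L] [IsLocalHom (algebraMap O H.algebra)]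
  {D : ∀ (M : ℕ) [NeZero M], HeckeGaloisModel M p}
  {pt : ∀ θ : H.algebra →ₐ[O] KBar O, Point p H θ.toRingHom}
  {rb : AbsGal →* Matrix (Fin 2) (Fin 2) (ResidueField O)}
  (G : Glued D pt rb) (hp : (p : O) ∈ maximalIdeal O) (hp2 : p = 2) (hΔ : IsPGroup p Δ)
  (θ : H.algebra →ₐ[O] KBar O)

include G hp hp2 hΔ

/-- The reduction of the newform of a point has the traces of `rb`. -/
theorem Glued.residue_trace_eigenMatrix (σ : AbsGal) :
    residue (pt θ).R ((D (pt θ).M).eigenMatrix (pt θ).ι (pt θ).θ' σ).trace =
      ResidueField.map (algebraMap O (pt θ).R) (rb σ).trace := by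
  obtain ⟨a, ha⟩ := residue_surjective (R := O) (rb σ).trace
  set t := ((D (pt θ).M).eigenMatrix (pt θ).ι (pt θ).θ' σ).trace with ht
  have hx : (G.R σ).trace - algebraMap O H.algebra a ∈ maximalIdeal H.algebra := by
    rw [← residue_eq_zero_iff, map_sub, AddMonoidHom.map_trace (residue H.algebra), G.residual,
      ← AddMonoidHom.map_trace (ResidueField.map (algebraMap O H.algebra)), ← ha,
      ResidueField.map_residue, sub_self]
  have hr : θ ((G.R σ).trace - algebraMap O H.algebra a) =
      (pt θ).j ((pt θ).et (cycHom L σ) * t - algebraMap O (pt θ).R a) := by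
    rw [map_sub, map_sub, map_mul, G.trace_eq, AlgHom.commutes, ← RingHom.comp_apply,
      (pt θ).j_algebraMap, (pt θ).rep_apply D, Matrix.trace_smul, smul_eq_mul,
      ← AddMonoidHom.map_trace (pt θ).j, ← ht]
  have h := mem_maximal_of_point hp hΔ (pt θ) hx hr
  rw [← residue_eq_zero_iff, map_sub, map_mul, (pt θ).residue_et hp2 hΔ, one_mul, sub_eq_zero] at h
  rw [h, ← ha, ResidueField.map_residue]

/-- The reduction of the newform of a point has the traces of `rb`. -/
theorem Glued.exists_residue_trace :
    ∃ φ : ResidueField O →+* ResidueField (pt θ).R, ∀ σ : AbsGal,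
      residue (pt θ).R ((D (pt θ).M).eigenMatrix (pt θ).ι (pt θ).θ' σ).trace = φ (rb σ).trace :=
  ⟨ResidueField.map (algebraMap O (pt θ).R), G.residue_trace_eigenMatrix hp hp2 hΔ θ⟩

/-- The reduction of the newform of a point is absolutely irreducible. -/
theorem Glued.isAbsolutelyIrreducible
    (hspan : Submodule.span (ResidueField O) (Set.range rb) = ⊤) :
    ((pt θ).adicRep D).residual.IsAbsolutelyIrreducible := by
  obtain ⟨k, g, h, hne⟩ := exists_trace_commutator_of_span rb hspan
  refine isAbsolutelyIrreducible_of_trace_commutator _ ⟨k, g, h, ?_⟩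
  have htr : ∀ σ, residue (pt θ).R (LinearMap.trace (pt θ).R _ (((pt θ).adicRep D).ρ σ)) =
      ResidueField.map (algebraMap O (pt θ).R) (rb σ).trace := fun σ => by
    show residue (pt θ).R (LinearMap.trace (pt θ).R _
      ((D (pt θ).M).eigenAction (pt θ).ι (pt θ).θ' σ)) = _
    rw [LinearMap.trace_eq_matrix_trace (pt θ).R ((D (pt θ).M).eigenBasis (pt θ).θ')]
    exact G.residue_trace_eigenMatrix hp hp2 hΔ θ σ
  rw [← residue_ne_zero_iff_isUnit, map_sub, htr, htr, sub_ne_zero]
  exact fun hc => hne ((ResidueField.map (algebraMap O (pt θ).R)).injective hc)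

end Fermat.Agent.TwoAdic.Module
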