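import Fermat.Agent.TwoAdic.Module.Glue.Rep
import Fermat.Agent.TwoAdic.Module.Glue.Residual
import Fermat.Agent.GaloisReps.Models
import Fermat.Agent.TwoAdic.Module.PointLocal
import Fermat.Agent.TwoAdic.Module.Line
import Fermat.Agent.TwoAdic.Module.Intertwine
import Fermat.Agent.TwoAdic.Deform.Make

/-!
# The deformation conditions of the representation over the Hecke algebra, `p = 2`

Pointwise the conditions at the primes of `L` come from the newforms; `isLift` transports them to
any quotient of the Hecke algebra with enough points.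
-/

set_option autoImplicit false

noncomputable section

open IsLocalRing Matrix
open scoped Pointwise

namespace Fermat.Agent.TwoAdic.Module

open GaloisReps (AbsGal HeckeGaloisModel)
open NewformLocal (UnipotentAt)

/-- At a prime dividing a squarefree `L` inertia moves only that component. -/
theorem cycHom_inertia_component {L : ℕ} [NeZero L] (hL : Squarefree L) {v : ℕ} (hv : v.Prime)
    (hvL : v ∣ L) {A : ValuationSubring (AlgebraicClosure ℚ)} (hA : A.LiesOverPrime v) {σ : AbsGal}
    (hσ : σ ∈ A.inertiaSubgroupIn ℚ) :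
    ((cycHom L σ : ZMod L).cast : ZMod (L / v)) = 1 :=
  Deform.cycHom_inertia_cast hL hv hvL hA hσ

/-- The action on the `v`-th roots of unity through the component at `v`. -/
theorem apply_root_component {L : ℕ} [NeZero L] {v : ℕ} [NeZero v] (hvL : v ∣ L) (σ : AbsGal)
    {μ : AlgebraicClosure ℚ} (hμ : μ ^ v = 1) :
    σ μ = μ ^ ((cycHom L σ : ZMod L).cast : ZMod v).val := by
  obtain ⟨k, hk⟩ := hvL
  have h := Deform.apply_root_cycHom (L := L) σ (ζ := μ) (by rw [hk, pow_mul, hμ, one_pow])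
  refine h.trans ?_
  rw [ZMod.cast_eq_val, ZMod.val_natCast, ← pow_eq_pow_mod _ hμ]
  rfl

/-- A unipotent element whose product with its conjugate by `F` has trace `2` is orthogonal
to `F`. -/
theorem trace_sub_one_mul_eq_zero {K : Type} [CommRing K] [IsDomain K]
    {T F F' : Matrix (Fin 2) (Fin 2) K} (hF : F * F' = 1) (ht : T.trace = 2) (hd : T.det = 1)
    (h : (T * (F * T * F')).trace = 2) : ((T - 1) * F).trace = 0 := by
  set N := T - 1 with hN
  set t := F.trace with htdef
  have h00 : N.trace = 0 := by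
    rw [hN, trace_sub, trace_one, ht, Fintype.card_fin]; norm_num
  have hdN : N.det = 0 := by rw [hN, det_sub_one_eq, hd, ht]; ring
  have hd0 : F.det ≠ 0 := fun h0 => by
    have := congrArg Matrix.det hF
    rw [det_mul, h0, zero_mul, det_one] at this
    exact zero_ne_one this
  have hF' : F.det • F' = t • (1 : Matrix (Fin 2) (Fin 2) K) - F := by
    have hCH : (t • (1 : Matrix (Fin 2) (Fin 2) K) - F) * F = F.det • 1 := by
      ext a b
      fin_cases a <;> fin_cases b <;>
        simp [t, Matrix.mul_apply, Fin.sum_univ_two, Matrix.trace_fin_two, Matrix.det_fin_two] <;>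
        ring
    calc F.det • F' = (F.det • 1) * F' := by rw [smul_mul_assoc, one_mul]
      _ = _ := by rw [← hCH, mul_assoc, hF, mul_one]
  have hTT : (N * (F * N * F')).trace = 0 := by
    have hexp : T * (F * T * F') = 1 + N + F * N * F' + N * (F * N * F') := by
      have hT : T = N + 1 := by rw [hN, sub_add_cancel]
      have hconj : F * T * F' = F * N * F' + 1 := by
        rw [hT, mul_add, mul_one, add_mul, hF]
      rw [hconj]
      rw [hT]
      noncomm_ring
    have hc : (F * N * F').trace = 0 := by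
      rw [trace_mul_comm, ← mul_assoc, mul_eq_one_comm.1 hF, one_mul, h00]
    rw [hexp] at h
    simp only [trace_add, trace_one, h00, hc, Fintype.card_fin] at h
    linear_combination h
  have hsq : ((N * F).trace) ^ 2 = 0 := by
    have h1 : (N * (F * N * (F.det • F'))).trace = 0 := by
      rw [mul_smul_comm, mul_smul_comm, trace_smul, hTT, smul_zero]
    rw [hF'] at h1
    have hNN : N * N = 0 := by
      ext a b
      rw [Matrix.trace_fin_two] at h00
      rw [Matrix.det_fin_two] at hdN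
      fin_cases a <;> fin_cases b <;> simp [Matrix.mul_apply, Fin.sum_univ_two]
      · linear_combination N 0 0 * h00 - hdN
      · linear_combination N 0 1 * h00
      · linear_combination N 1 0 * h00
      · linear_combination N 1 1 * h00 - hdN
    have h2 : (N * (F * N)).trace = 0 := by
      rw [trace_mul_comm, mul_assoc, hNN, mul_zero, trace_zero]
    have h3 : (N * F * (N * F)).trace = (N * F).trace ^ 2 := by
      have hdNF : (N * F).det = 0 := by rw [det_mul, hdN, zero_mul]
      generalize N * F = Y at hdNF ⊢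
      rw [Matrix.det_fin_two] at hdNF
      simp only [Matrix.trace_fin_two, Matrix.mul_apply, Fin.sum_univ_two]
      linear_combination (-2 : K) * hdNF
    rw [mul_sub, mul_sub, mul_smul_comm, mul_one, mul_smul_comm, trace_sub, trace_smul, h2,
      smul_zero, zero_sub, neg_eq_zero, show N * (F * N * F) = N * F * (N * F) by
        simp only [mul_assoc], h3] at h1
    exact h1
  exact pow_eq_zero_iff two_ne_zero |>.1 hsq

variable {O : Type} [CommRing O] [IsDomain O] [IsDiscreteValuationRing O]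
  {L : ℕ} [NeZero L] {Δ : Type} [CommGroup Δ] {ψ : (ZMod L)ˣ →* Δ} {S : Finset ℕ}
  {abar : ℕ → ResidueField O} {H : HeckeData L ψ S abar}
  {D : ∀ (M : ℕ) [NeZero M], HeckeGaloisModel M 2}

/-- The component at `v` of the nebentypus of `θ` is trivial. -/
def TrivialComponent (θ : H.algebra →+* KBar O) (v : ℕ) : Prop :=
  ∀ u : (ZMod L)ˣ, ((u : ZMod L).cast : ZMod (L / v)) = 1 → θ (diaA H (ψ u)) = 1

section Point

variable {θ : H.algebra →+* KBar O} (P : Point 2 H θ) {v : ℕ} (hL : Squarefree L) (hv : v.Prime)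
  (hvL : v ∣ L) {A : ValuationSubring (AlgebraicClosure ℚ)} (hA : A.LiesOverPrime v) {σ : AbsGal}
  (hσ : σ ∈ A.inertiaSubgroupIn ℚ)

include hL hv hvL hA hσ in
theorem Point.et_inertia (htriv : TrivialComponent θ v) : P.et (cycHom L σ) = 1 :=
  P.et_eq_one v hv hvL htriv _ (cycHom_inertia_component hL hv hvL hA hσ)

include hL hv hvL hA hσ in
/-- At a prime with trivial component inertia has trace `2` and determinant `1`. -/
theorem Point.trace_det_inertia (hv2 : v ≠ 2) (htriv : TrivialComponent θ v)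
    (hU : v ∣ P.M → ¬ v ^ 2 ∣ P.M → UnipotentAt (D P.M) v) :
    (P.rep D σ).trace = 2 ∧ (P.rep D σ).det = 1 := by
  have h := Module.trace_det_inertia (D P.M) P.ι P.θ' hv hv2
    (fun h => hU h (P.not_sq_dvd v hv hvL htriv)) hA hσ
  rw [P.rep_apply D, P.et_inertia hL hv hvL hA hσ htriv, map_one, one_smul,
    ← eigenHom_apply (D P.M) P.ι P.θ', ← RingHom.mapMatrix_apply, ← RingHom.map_det,
    RingHom.mapMatrix_apply, ← AddMonoidHom.map_trace P.j]
  exact ⟨by rw [h.1, map_ofNat], by rw [h.2, map_one]⟩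

include hL hv hvL hA hσ in
/-- At a prime with trivial component prime to the level of the newform inertia acts trivially. -/
theorem Point.rep_inertia_eq_one (hv2 : v ≠ 2) (htriv : TrivialComponent θ v) (hM : ¬ v ∣ P.M) :
    P.rep D σ = 1 := by
  have hgal := (D P.M).gal_unramified v hv (fun h => (hv.dvd_mul.1 h).elim hM fun h' =>
    hv2 ((Nat.prime_dvd_prime_iff_eq hv Nat.prime_two).1 h')) A hA σ hσ
  have h1 : (D P.M).eigenAction P.ι P.θ' σ = 1 := by
    refine LinearMap.ext fun w => Subtype.ext ?_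
    rw [GaloisReps.HeckeGaloisModel.coe_eigenAction, hgal,
      Matrix.map_one P.ι (map_zero P.ι) (map_one P.ι), Matrix.one_mulVec, Module.End.one_apply]
  rw [P.rep_apply D, P.et_inertia hL hv hvL hA hσ htriv, map_one, one_smul,
    GaloisReps.HeckeGaloisModel.eigenMatrix, h1, LinearMap.toMatrix_one,
    Matrix.map_one P.j (map_zero P.j) (map_one P.j)]

variable [Finite Δ] (hΔ : IsPGroup 2 Δ)

include hΔ in
theorem Point.exists_etC_pow : ∃ k : ℕ, P.etC ^ 2 ^ k = 1 := by
  obtain ⟨k, hk⟩ := hΔ.exists_card_eq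
  refine ⟨k + 1, ?_⟩
  rw [pow_succ', pow_mul, P.isRoot.sq]
  refine MulChar.ext fun w => ?_
  rw [MulChar.pow_apply_coe, MulChar.one_apply_coe, nebChar_apply, ← map_pow, ← map_pow, ← hk,
    pow_card_eq_one', map_one, map_one]

include hΔ hL hv hvL hA hσ in
/-- Inertia at an auxiliary prime fixes a nonzero vector. -/
theorem Point.det_sub_one_inertia (hv2 : v ≠ 2) (hS : ∀ q : ℕ, q.Prime → q ∣ L → q ∈ S)
    (h2S : 2 ∈ S) (hU : v ∣ P.M → ¬ v ^ 2 ∣ P.M → UnipotentAt (D P.M) v)
    (hE : ∀ (R' : ℕ) [NeZero R'] [Fact v.Prime], TraceInertiaTwo v R' P.M P.g)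
    (hC : ∀ (N : ℕ) [NeZero N], GaloisReps.CongruenceProperty N 2)
    (hirr : ((D P.M).rep P.ι P.θ' P.p_mem).residual.IsAbsolutelyIrreducible)
    (hres : ∀ τ ∈ A.inertiaSubgroupIn ℚ,
      (eigenHom (D P.M) P.ι P.θ' τ).trace ∈ maximalIdeal P.R) :
    (P.rep D σ).det - (P.rep D σ).trace + 1 = 0 := by
  by_cases htriv : TrivialComponent θ v
  · rw [(P.trace_det_inertia hL hv hvL hA hσ hv2 htriv hU).1,
      (P.trace_det_inertia hL hv hvL hA hσ hv2 htriv hU).2]
    ring
  · haveI : Fact v.Prime := ⟨hv⟩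
    have h2R : (2 : P.R) ∈ maximalIdeal P.R := by simpa using P.p_mem
    have hne : ¬ IsTrivialAt (H.nebChar (P.emb.toRingHom.comp θ)) v := fun h => htriv fun u hu => by
      refine P.emb.injective (((nebChar_apply H (P.emb.toRingHom.comp θ) u).symm.trans
        (h u hu)).trans (map_one P.emb).symm)
    haveI : NeZero (v ^ 2 * (L / v) ^ 2) :=
      ⟨by rw [← mul_pow, Nat.mul_div_cancel' hvL]; exact pow_ne_zero 2 (NeZero.ne L)⟩
    have key := trace_inertia_twist (D P.M) P.ι P.θ' P.isNewform (P.emb.toRingHom.comp P.j)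
      (P.emb.injective.comp P.j_injective) P.emb_θ' h2R hL hvL hv2 P.dvd
      (fun R' _ => hE R') (hC _) P.etC (P.exists_etC_pow hΔ) (by rw [P.isRoot.sq]; exact hne)
      hS h2S (P.partialTwist v hv hvL hne) hirr hA hres hσ
      (cycHom_inertia_component hL hv hvL hA hσ) fun μ hμ =>
        haveI : NeZero v := ⟨hv.ne_zero⟩
        apply_root_component hvL σ hμ
    have hdet := det_inertia_eq_one (D P.M) P.ι P.θ' h2R hv hv2 hA hσ
    set c := P.et (cycHom L σ)
    have hc : P.etC (cycHom L σ) ≠ 0 := (IsUnit.map P.etC (cycHom L σ).isUnit).ne_zero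
    refine P.emb.injective ?_
    rw [P.rep_apply D, ← eigenHom_apply (D P.M) P.ι P.θ', Matrix.det_smul, Fintype.card_fin,
      Matrix.trace_smul, ← RingHom.mapMatrix_apply, ← RingHom.map_det, hdet, map_one,
      RingHom.mapMatrix_apply, ← AddMonoidHom.map_trace P.j, smul_eq_mul, mul_one, map_add,
      map_sub, map_pow, map_mul, map_one, map_zero, P.emb_et]
    rw [show P.emb (P.j (eigenHom (D P.M) P.ι P.θ' σ).trace) = _ from key]
    field_simp
    ring

end Point

variable [IsAdicComplete (maximalIdeal O) O] [Finite (ResidueField O)] [CharZero O] [Finite Δ]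
  [IsLocalRing H.algebra] [IsLocalHom (algebraMap O H.algebra)]
  {pt : ∀ θ : H.algebra →ₐ[O] KBar O, Point 2 H θ.toRingHom}

section Glued

variable {rb : AbsGal →* Matrix (Fin 2) (Fin 2) (ResidueField O)} (G : Glued D pt rb)
  (θ : H.algebra →ₐ[O] KBar O)

omit [IsAdicComplete (maximalIdeal O) O] [Finite (ResidueField O)] [CharZero O] [Finite Δ] in
theorem Glued.span_map_eq_top :
    Submodule.span (KBar O) (Set.range fun σ => (G.R σ).map θ) = ⊤ := by
  refine eq_top_iff.2 fun X _ => ?_
  rw [Matrix.matrix_eq_sum_single X]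
  refine Submodule.sum_mem _ fun i _ => Submodule.sum_mem _ fun j _ => ?_
  rw [show Matrix.single i j (X i j) = X i j • Matrix.single i j (1 : KBar O) by
    rw [Matrix.smul_single, smul_eq_mul, mul_one]]
  refine Submodule.smul_mem _ _ ?_
  have hmap : (Matrix.single i j (1 : H.algebra)).map θ = Matrix.single i j (1 : KBar O) := by
    rw [Matrix.map_single _ _ _ θ, map_one]
  rw [← hmap]
  have hY : Matrix.single i j (1 : H.algebra) ∈ Submodule.span H.algebra (Set.range G.R) := by
    rw [G.span_eq_top]; trivial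
  generalize Matrix.single i j (1 : H.algebra) = Y at hY ⊢
  induction hY using Submodule.span_induction with
  | mem Y hY => obtain ⟨σ, rfl⟩ := hY; exact Submodule.subset_span ⟨σ, rfl⟩
  | zero => rw [Matrix.map_zero _ (map_zero θ)]; exact zero_mem _
  | add Y Z _ _ hY hZ => rw [Matrix.map_add _ (map_add θ)]; exact add_mem hY hZ
  | smul a Y _ hY =>
    rw [show (a • Y).map θ = θ a • Y.map θ from Matrix.ext fun i j => by simp [Matrix.map_apply]]
    exact Submodule.smul_mem _ _ hY

omit [IsAdicComplete (maximalIdeal O) O] [Finite (ResidueField O)] [CharZero O] [Finite Δ] in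
/-- The representation at a point is conjugate to the twisted one of the newform. -/
theorem Glued.exists_conj_rep : ∃ X : Matrix (Fin 2) (Fin 2) (KBar O), X.det ≠ 0 ∧
    ∀ σ, X * (G.R σ).map θ = (pt θ).rep D σ * X :=
  exists_intertwiner ((θ.toRingHom.mapMatrix.toMonoidHom).comp G.R) ((pt θ).rep D)
    (G.span_map_eq_top θ) fun σ => by
      rw [← G.trace_eq]
      exact (AddMonoidHom.map_trace θ.toRingHom (G.R σ)).symm

omit [IsAdicComplete (maximalIdeal O) O] [Finite (ResidueField O)] [CharZero O] [Finite Δ] in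
/-- Where inertia is unipotent its logarithm is orthogonal to the decomposition group. -/
theorem Glued.trace_sub_one_mul (hL : Squarefree L) {v : ℕ} (hv : v.Prime) (hvL : v ∣ L)
    (hv2 : v ≠ 2) (htriv : TrivialComponent θ.toRingHom v)
    (hU : v ∣ (pt θ).M → ¬ v ^ 2 ∣ (pt θ).M → UnipotentAt (D (pt θ).M) v)
    {A : ValuationSubring (AlgebraicClosure ℚ)} (hA : A.LiesOverPrime v) {τ g : AbsGal}
    (hτ : τ ∈ A.inertiaSubgroupIn ℚ) (hg : g ∈ A.decompositionSubgroup ℚ) :
    θ ((G.R τ - 1) * G.R g).trace = 0 := by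
  have hgτ : g * τ * g⁻¹ ∈ A.inertiaSubgroupIn ℚ := by
    have := (Arith.mem_inertia_smul_iff (g := g)).2 hτ
    rwa [show g • A = A from hg] at this
  have ht : ∀ σ ∈ A.inertiaSubgroupIn ℚ,
      ((G.R σ).map θ).trace = 2 ∧ ((G.R σ).map θ).det = 1 := fun σ hσ => by
    rw [← AddMonoidHom.map_trace θ, show ((G.R σ).map θ).det = θ (G.R σ).det from
      (RingHom.map_det θ.toRingHom (G.R σ)).symm]
    have := (pt θ).trace_det_inertia (D := D) hL hv hvL hA hσ hv2 htriv hU
    exact ⟨(G.trace_eq θ σ).trans this.1, (G.det_eq θ σ).trans this.2⟩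
  rw [AddMonoidHom.map_trace θ, Matrix.map_mul, Matrix.map_sub _ (map_sub θ),
    Matrix.map_one θ (map_zero θ) (map_one θ)]
  refine trace_sub_one_mul_eq_zero (F' := (G.R g⁻¹).map θ) ?_ (ht τ hτ).1 (ht τ hτ).2 ?_
  · rw [← Matrix.map_mul, ← map_mul, mul_inv_cancel, map_one,
      Matrix.map_one θ (map_zero θ) (map_one θ)]
  · rw [← Matrix.map_mul, ← Matrix.map_mul, ← Matrix.map_mul, ← map_mul, ← map_mul, ← map_mul]
    exact (ht _ (mul_mem hτ hgτ)).1

end Glued

section Setting

variable {St : Deform.Setting O} (G : Glued D pt St.W.rb) (hL : Squarefree L)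
  (h2 : ∀ u : (ZMod L)ˣ, ((u : ZMod L).cast : ZMod (L / 2)) = 1 → ψ u = 1)
  (hΔ : IsPGroup 2 Δ)

omit [IsAdicComplete (maximalIdeal O) O] [Finite (ResidueField O)] [CharZero O] [Finite Δ] in
theorem two_mem_maximalIdeal (St : Deform.Setting O) : ((2 : ℕ) : O) ∈ maximalIdeal O := by
  rw [← residue_eq_zero_iff, map_natCast, Nat.cast_ofNat]
  exact St.two_eq_zero

include hL h2 hΔ in
/-- The line at `2`. -/
theorem Glued.exists_twoLine (h2L : 2 ∣ L)
    (hline : ∀ (M : ℕ) [NeZero M], LineAtTwo St (D M)) : ∃ x, Deform.TwoLine St G.R x := by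
  have hu : IsUnit (G.R St.σ2 0 1) := by
    refine (residue_ne_zero_iff_isUnit _).1 ?_
    rw [show residue H.algebra (G.R St.σ2 0 1) = _ from congrFun (congrFun (G.residual St.σ2) 0) 1,
      Matrix.map_apply, St.rb_σ2]
    simp [Deform.upperU]
  refine exists_line (fun θ : H.algebra →ₐ[O] KBar O => θ.toRingHom)
    (fun a ha => eq_zero_of_forall_point ha) G.R St.σ2_mem hu fun θ => ?_
  have htriv : TrivialComponent θ.toRingHom 2 := fun u hu => by rw [h2 u hu, map_one, map_one]
  obtain ⟨φ, hφ⟩ := G.exists_residue_trace (two_mem_maximalIdeal St) rfl hΔ θ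
  obtain ⟨f, hf, hfix⟩ := hline (pt θ).M
    (fun h4 => (pt θ).not_sq_dvd 2 Nat.prime_two h2L htriv (by norm_num; exact h4))
    (pt θ).R (by simpa using (pt θ).p_mem) (pt θ).ι (pt θ).θ' φ hφ
  obtain ⟨X, hX, hconj⟩ := G.exists_conj_rep θ
  refine ⟨((pt θ).j ∘ f) ᵥ* X, fun h0 => hX ?_, fun σ hσ => ?_⟩
  · refine Matrix.exists_vecMul_eq_zero_iff.1 ⟨(pt θ).j ∘ f, fun h => hf (funext fun i => ?_), h0⟩
    refine (pt θ).j_injective ?_
    rw [Pi.zero_apply, map_zero]
    exact congrFun h i
  · have hrep : ((pt θ).j ∘ f) ᵥ* (pt θ).rep D σ = (pt θ).j ∘ f := by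
      rw [(pt θ).rep_apply D, (pt θ).et_inertia hL Nat.prime_two h2L St.P2_over hσ htriv, map_one,
        one_smul]
      exact funext fun i => ((pt θ).j.map_vecMul _ _ i).symm.trans
        (congrArg (pt θ).j (congrFun (hfix σ hσ) i))
    calc (((pt θ).j ∘ f) ᵥ* X) ᵥ* (G.R σ).map θ.toRingHom
        = ((pt θ).j ∘ f) ᵥ* ((pt θ).rep D σ * X) := by rw [vecMul_vecMul, ← hconj σ]; rfl
      _ = ((pt θ).j ∘ f) ᵥ* X := by rw [← vecMul_vecMul, hrep]

include hL h2 in
omit [IsAdicComplete (maximalIdeal O) O] [Finite (ResidueField O)] [CharZero O] [Finite Δ] in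
/-- On inertia at `2` the determinant is cyclotomic. -/
theorem Glued.det_inertia_two (h2L : 2 ∣ L) {σ : AbsGal}
    (hσ : σ ∈ St.P2.inertiaSubgroupIn ℚ) (n a : ℕ)
    (ha : ∀ μ : AlgebraicClosure ℚ, μ ^ 2 ^ n = 1 → σ μ = μ ^ a) :
    (G.R σ).det - (a : H.algebra) ∈ Ideal.span {((2 ^ n : ℕ) : H.algebra)} := by
  have h := G.det_congr n σ a ha
  rw [h2 _ (cycHom_inertia_component hL Nat.prime_two h2L St.P2_over hσ), map_one, one_mul] at h
  rwa [Nat.cast_pow]

variable {A : Type} [CommRing A] [Algebra O A] (f : H.algebra →ₐ[O] A)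
  (hsep : ∀ a : A, (∀ θ : A →ₐ[O] KBar O, θ a = 0) → a = 0)

set_option maxHeartbeats 800000 in
include hsep hL h2 hΔ in
/-- **The deformation condition** on a quotient of the Hecke algebra with enough points. -/
theorem Glued.isLift (h2L : 2 ∣ L)
    (hS : ∀ q : ℕ, q.Prime → q ∣ L → q ∈ S) (h2S : 2 ∈ S) (Lv : Deform.Level St)
    (hH : ∀ σ ∈ Lv.H, f (diaA H (ψ (cycHom L σ))) = 1)
    (hψ : ∀ v : ℕ, v.Prime → v ∣ L → v ≠ 2 → v ∉ Lv.Q → ∀ u : (ZMod L)ˣ,
      ((u : ZMod L).cast : ZMod (L / v)) = 1 → f (diaA H (ψ u)) = 1)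
    (hnew : ∀ θ v, v.Prime → v ∣ L → v ≠ 2 → v ∉ St.T → v ∉ Lv.Q →
      TrivialComponent (θ : H.algebra →ₐ[O] KBar O).toRingHom v → ¬ v ∣ (pt θ).M)
    (hU : ∀ (v M : ℕ) [NeZero M], v.Prime → v ≠ 2 → v ∣ M → ¬ v ^ 2 ∣ M → UnipotentAt (D M) v)
    (hE : ∀ (v R' M : ℕ) [Fact v.Prime] [NeZero R'] [NeZero M]
      (g : CuspForm (CongruenceSubgroup.Gamma0 M) 2), TraceInertiaTwo v R' M g)
    (hspan : Submodule.span (ResidueField O) (Set.range St.W.rb) = ⊤)
    (hline : ∀ (M : ℕ) [NeZero M], LineAtTwo St (D M)) :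
    Deform.IsLift St Lv (Fermat.Agent.Deform.mapM f.toRingHom G.R) := by
  have htr : ∀ (θA : A →ₐ[O] KBar O) v, v.Prime → v ∣ L → v ≠ 2 → v ∉ Lv.Q →
      TrivialComponent (θA.comp f).toRingHom v := fun θA v hv hvL hv2 hvQ u hu => by
    show θA (f (diaA H (ψ u))) = 1
    rw [hψ v hv hvL hv2 hvQ u hu, map_one]
  refine
    { det := fun σ hσ n a ha => ?_
      unramified := fun q hq hq2 hqT hqQ P hP σ hσ => ?_
      steinberg := fun q hqT P hP σ hσ => ?_
      qdet := fun q hqQ P hP σ hσ => ?_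
      two := ?_ }
  · have h1 := Ideal.mem_map_of_mem f.toRingHom (G.det_congr n σ a ha)
    rw [Ideal.map_span, Set.image_singleton, map_pow, map_sub, map_mul, map_natCast,
      map_natCast] at h1
    simp only [AlgHom.toRingHom_eq_coe, RingHom.coe_coe] at h1
    rw [hH σ hσ, one_mul] at h1
    show ((G.R σ).map f.toRingHom).det - (a : A) ∈ _
    rw [← RingHom.mapMatrix_apply, ← RingHom.map_det, Nat.cast_pow, Nat.cast_ofNat]
    simpa using h1
  · show (G.R σ).map f.toRingHom = 1
    by_cases hqL : q ∣ L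
    · refine Matrix.ext fun i j => sub_eq_zero.1 (hsep _ fun θA => ?_)
      have htriv := htr θA q hq hqL hq2 hqQ
      have h1 := congrFun (congrFun ((G.map_eq_one (θA.comp f) σ).2
        ((pt _).rep_inertia_eq_one hL hq hqL hP hσ hq2 htriv
          (hnew _ q hq hqL hq2 hqT hqQ htriv))) i) j
      rw [map_sub, Matrix.map_apply]
      rw [Matrix.map_apply] at h1
      rw [show θA (f.toRingHom (G.R σ i j)) = _ from h1]
      rcases eq_or_ne i j with rfl | hij
      · simp
      · simp [Matrix.one_apply_ne hij]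
    · rw [G.unramified hq hqL hq2 hP hσ]
      exact Matrix.map_one _ (map_zero _) (map_one _)
  · show ((G.R σ).map f.toRingHom).trace = 2 ∧ ((G.R σ).map f.toRingHom).det = 1
    have hq := St.prime_of_mem q hqT
    have hq2 : q ≠ 2 := fun h => St.two_notMem (h ▸ hqT)
    have hqQ : q ∉ Lv.Q := fun h => Lv.notMem_T q h hqT
    by_cases hqL : q ∣ L
    · rw [← RingHom.mapMatrix_apply, ← RingHom.map_det, RingHom.mapMatrix_apply,
        ← AddMonoidHom.map_trace f.toRingHom]
      constructor <;> refine sub_eq_zero.1 (hsep _ fun θA => ?_) <;>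
        have h1 := (pt (θA.comp f)).trace_det_inertia (D := D) hL hq hqL hP hσ hq2
          (htr θA q hq hqL hq2 hqQ) fun h h' => hU q _ hq hq2 h h'
      · rw [map_sub, map_ofNat, sub_eq_zero]
        exact (G.trace_eq (θA.comp f) σ).trans h1.1
      · rw [map_sub, map_one, sub_eq_zero]
        exact (G.det_eq (θA.comp f) σ).trans h1.2
    · rw [G.unramified hq hqL hq2 hP hσ, Matrix.map_one _ (map_zero _) (map_one _)]
      exact ⟨by simp, Matrix.det_one⟩
  · show ((G.R σ).map f.toRingHom - 1).det = 0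
    have hq := Lv.prime_of_mem q hqQ
    have hq2 := Lv.ne_two q hqQ
    by_cases hqL : q ∣ L
    · rw [← Matrix.map_one f.toRingHom (map_zero _) (map_one _),
        ← Matrix.map_sub _ (map_sub f.toRingHom), ← RingHom.mapMatrix_apply, ← RingHom.map_det,
        det_sub_one_eq]
      have h0 : (G.R σ).det - (G.R σ).trace + 1 = 0 := eq_zero_of_forall_point fun θ => by
        rw [map_add, map_sub, map_one, G.trace_eq, G.det_eq]
        obtain ⟨φ, hφ⟩ := G.exists_residue_trace (two_mem_maximalIdeal St) rfl hΔ θ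
        refine (pt θ).det_sub_one_inertia hL hq hqL hP hσ hΔ hq2 hS h2S
          (fun h h' => hU q _ hq hq2 h h') (fun R' _ _ => hE q R' _ _)
          (fun N _ => GaloisReps.congruenceProperty N 2)
          (G.isAbsolutelyIrreducible (two_mem_maximalIdeal St) rfl hΔ θ hspan) fun τ hτ => ?_
        rw [← residue_eq_zero_iff, eigenHom_apply, hφ,
          St.rb_unramified q hq hq2 (Lv.notMem_T q hqQ) P hP τ hτ, Matrix.trace_one,
          Fintype.card_fin, Nat.cast_ofNat, St.two_eq_zero, map_zero]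
      rw [h0, map_zero]
    · rw [G.unramified hq hqL hq2 hP hσ, Matrix.map_one _ (map_zero _) (map_one _), sub_self,
        Matrix.det_zero]
  · obtain ⟨x, hx1, hx2⟩ := G.exists_twoLine hL h2 hΔ h2L hline
    refine ⟨f x, fun σ hσ => ?_, fun σ hσ => ?_⟩
    · have h := hx1 σ hσ
      constructor
      · have := congrArg f h.1
        simpa [Fermat.Agent.Deform.mapM] using this
      · have := congrArg f h.2
        simpa [Fermat.Agent.Deform.mapM] using this
    · have := congrArg f (hx2 σ hσ)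
      simpa [Deform.StableLine, Fermat.Agent.Deform.mapM] using this

end Setting

end Fermat.Agent.TwoAdic.Module
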