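import Fermat.Agent.TwoAdic.Module.Glue.Algebra
import Fermat.Agent.RT.Glue.Points
import Fermat.Agent.NewformLocal.Det
import Fermat.Agent.ConductorLevel.Eigen
import Fermat.Agent.GaloisReps.Unramified
import Fermat.Agent.GaloisReps.CoeffExt
import Fermat.Agent.Arith.RootsOfUnity
import Fermat.Prelude.Def_ExtCitation_AdmissibleExtension

/-!
# The representation at a point of the Hecke algebra of a `HeckeData`

At a point the system is `et(ℓ) a_ℓ(g)` for a newform `g` and a character `et` modulo `L`; the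
representation is that of `g` twisted by `et` composed with the cyclotomic character modulo `L`.
-/

set_option autoImplicit false

noncomputable section

open IsLocalRing Polynomial

namespace Fermat.Agent.TwoAdic.Module

open GaloisReps (AbsGal FullHecke HeckeGaloisModel powerTrace)

/-- The cyclotomic character modulo `L`. -/
def cycHom (L : ℕ) [NeZero L] : AbsGal →* (ZMod L)ˣ where
  toFun σ := modularCyclotomicCharacter (AlgebraicClosure ℚ)
    (IsAlgClosed.card_rootsOfUnity_eq (AlgebraicClosure ℚ) L)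
    (σ : AlgebraicClosure ℚ ≃+* AlgebraicClosure ℚ)
  map_one' := map_one (modularCyclotomicCharacter (AlgebraicClosure ℚ)
    (IsAlgClosed.card_rootsOfUnity_eq (AlgebraicClosure ℚ) L))
  map_mul' σ τ := map_mul (modularCyclotomicCharacter (AlgebraicClosure ℚ)
    (IsAlgClosed.card_rootsOfUnity_eq (AlgebraicClosure ℚ) L))
    (σ : AlgebraicClosure ℚ ≃+* AlgebraicClosure ℚ) (τ : AlgebraicClosure ℚ ≃+* AlgebraicClosure ℚ)

section Cyc

variable {L : ℕ} [NeZero L]

theorem cycHom_eq_of_roots {σ : AbsGal} {a : ℕ}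
    (h : ∀ μ : AlgebraicClosure ℚ, μ ^ L = 1 → σ μ = μ ^ a) : (cycHom L σ : ZMod L) = a :=
  Arith.modularCyclotomicCharacter_eq_natCast _ h

theorem cycHom_eq_one {σ : AbsGal} (h : ∀ μ : AlgebraicClosure ℚ, μ ^ L = 1 → σ μ = μ) :
    cycHom L σ = 1 :=
  Units.ext ((cycHom_eq_of_roots (a := 1) fun μ hμ => by rw [pow_one]; exact h μ hμ).trans
    Nat.cast_one)

theorem cycHom_frobenius {ℓ : ℕ} (hℓ : ℓ.Prime) (hℓL : ℓ.Coprime L)
    {A : ValuationSubring (AlgebraicClosure ℚ)} (hA : A.LiesOverPrime ℓ) {s : AbsGal}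
    (hs : A.IsFrobeniusAt s ℓ) : cycHom L s = ZMod.unitOfCoprime ℓ hℓL :=
  Units.ext ((Arith.modularCyclotomicCharacter_frobenius hA hℓ hs _
    (hℓ.coprime_iff_not_dvd.1 hℓL)).trans (ZMod.coe_unitOfCoprime ℓ hℓL).symm)

theorem cycHom_inertia {q : ℕ} (hq : q.Prime) (hqL : ¬ q ∣ L)
    {A : ValuationSubring (AlgebraicClosure ℚ)} (hA : A.LiesOverPrime q) {σ : AbsGal}
    (hσ : σ ∈ A.inertiaSubgroupIn ℚ) : cycHom L σ = 1 :=
  Arith.modularCyclotomicCharacter_inertia hA hq hσ _ hqL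

variable (L) in
theorem cycHom_factors :
    ∃ F : IntermediateField ℚ (AlgebraicClosure ℚ), FiniteDimensional ℚ F ∧
      ∀ σ : AbsGal, (∀ x ∈ F, σ x = x) → cycHom L σ = 1 := by
  obtain ⟨ζ, hζ⟩ : ∃ ζ : AlgebraicClosure ℚ, IsPrimitiveRoot ζ L :=
    HasEnoughRootsOfUnity.exists_primitiveRoot _ L
  refine ⟨IntermediateField.adjoin ℚ {ζ},
    IntermediateField.adjoin.finiteDimensional (Algebra.IsIntegral.isIntegral ζ),
    fun σ hσ => cycHom_eq_one fun μ hμ => ?_⟩
  obtain ⟨i, -, rfl⟩ := hζ.eq_pow_of_pow_eq_one hμ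
  exact hσ _ (pow_mem (IntermediateField.mem_adjoin_simple_self ℚ ζ) i)

end Cyc

theorem mul_powerTrace_twist {R : Type*} [CommRing R] (c t l : R) :
    ∀ i : ℕ, c ^ i * powerTrace t l i = powerTrace (c * t) (c ^ 2 * l) i
  | 0 => by simp [powerTrace]
  | 1 => by simp [powerTrace]
  | i + 2 => by
    have h1 := mul_powerTrace_twist c t l (i + 1)
    have h2 := mul_powerTrace_twist c t l i
    simp only [powerTrace]
    rw [← h1, ← h2]
    ring

variable {O : Type} [CommRing O] [IsDomain O] [IsDiscreteValuationRing O]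
  {p : ℕ} [Fact p.Prime]
  {L : ℕ} {Δ : Type} [CommGroup Δ] {ψ : (ZMod L)ˣ →* Δ} {S : Finset ℕ}
  {abar : ℕ → ResidueField O}

/-- The algebraic closure of the fraction field. -/
abbrev KBar (O : Type) [CommRing O] [IsDomain O] : Type := AlgebraicClosure (FractionRing O)

theorem coprime_of_notMem (hS : ∀ q : ℕ, q.Prime → q ∣ L → q ∈ S) {ℓ : ℕ} (hℓ : ℓ.Prime)
    (hℓS : ℓ ∉ S) : ℓ.Coprime L :=
  hℓ.coprime_iff_not_dvd.2 fun h => hℓS (hS ℓ hℓ h)

/-- The determinant of Frobenius at `ℓ ∉ S`. -/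
def dA (H : HeckeData L ψ S abar) (hS : ∀ q : ℕ, q.Prime → q ∣ L → q ∈ S) {ℓ : ℕ}
    (hℓ : ℓ.Prime) (hℓS : ℓ ∉ S) : H.algebra :=
  diaA H (ψ (ZMod.unitOfCoprime ℓ (coprime_of_notMem hS hℓ hℓS))) * (ℓ : H.algebra)

theorem nebChar_apply (H : HeckeData L ψ S abar) (θ : H.algebra →+* ℂ) (u : (ZMod L)ˣ) :
    H.nebChar θ u = θ (diaA H (ψ u)) := by
  rw [HeckeData.nebChar, MulChar.ofUnitHom_coe]
  rfl

theorem system_apply (H : HeckeData L ψ S abar) (θ : H.algebra →+* ℂ) {ℓ : ℕ} (hℓ : ℓ.Prime)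
    (hℓS : ℓ ∉ S) : H.system θ ℓ = θ (TA H hℓ hℓS) := by
  rw [HeckeData.system, dif_pos ⟨hℓ, hℓS⟩]
  rfl

/-- A newform, a twist and a representation realising a point of the Hecke algebra. -/
structure Point (p : ℕ) [Fact p.Prime] (H : HeckeData L ψ S abar) (θK : H.algebra →+* KBar O) : Type 1 where
  M : ℕ
  [neM : NeZero M]
  g : CuspForm (CongruenceSubgroup.Gamma0 M) 2
  isNewform : g.IsNewform
  dvd : M ∣ L ^ 2
  R : Type
  [commR : CommRing R]
  [domR : IsDomain R]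
  [dvrR : IsDiscreteValuationRing R]
  [char0R : CharZero R]
  [algR : Algebra O R]
  [finR : Module.Finite O R]
  [complR : IsAdicComplete (maximalIdeal R) R]
  [finResR : Finite (ResidueField R)]
  j : R →+* KBar O
  j_injective : Function.Injective j
  j_algebraMap : j.comp (algebraMap O R) = algebraMap O (KBar O)
  p_mem : (p : R) ∈ maximalIdeal R
  ι : ℤ_[p] →+* R
  θ' : FullHecke M →+* R
  emb : KBar O ≃+* ℂ
  emb_θ' : ∀ t, emb (j (θ' t)) = ConductorLevel.eigenChar isNewform.1 ∅ t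
  /-- The twist. -/
  et : (ZMod L)ˣ →* R
  /-- The twist as a Dirichlet character. -/
  etC : DirichletCharacter ℂ L
  emb_et : ∀ u : (ZMod L)ˣ, emb (j (et u)) = etC u
  isRoot : IsRoot (H.nebChar (emb.toRingHom.comp θK)) etC
  value : ∀ {ℓ : ℕ} (hℓ : ℓ.Prime) (hℓS : ℓ ∉ S) (u : (ZMod L)ˣ), (u : ZMod L) = (ℓ : ZMod L) →
    j (et u) * j (θ' (HeckeDuality.heckeOp M 2 ℓ hℓ)) = θK (TA H hℓ hℓS)
  et_sq : ∀ u : (ZMod L)ˣ, j (et u) ^ 2 = θK (diaA H (ψ u))
  et_eq_one : ∀ v : ℕ, v.Prime → v ∣ L →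
    (∀ u : (ZMod L)ˣ, ((u : ZMod L).cast : ZMod (L / v)) = 1 → θK (diaA H (ψ u)) = 1) →
    ∀ u : (ZMod L)ˣ, ((u : ZMod L).cast : ZMod (L / v)) = 1 → et u = 1
  not_sq_dvd : ∀ v : ℕ, v.Prime → v ∣ L →
    (∀ u : (ZMod L)ˣ, ((u : ZMod L).cast : ZMod (L / v)) = 1 → θK (diaA H (ψ u)) = 1) →
    ¬ v ^ 2 ∣ M
  partialTwist : ∀ v : ℕ, v.Prime → v ∣ L →
    ¬ IsTrivialAt (H.nebChar (emb.toRingHom.comp θK)) v → HasPartialTwist etC S v g

attribute [instance] Point.neM Point.commR Point.domR Point.dvrR Point.char0R Point.algR Point.finR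
  Point.complR Point.finResR

/-- Every point is realised. -/
theorem exists_point [IsAdicComplete (maximalIdeal O) O] [Finite (ResidueField O)] [CharZero O]
    [NeZero L] (hp : (p : O) ∈ maximalIdeal O) (H : HeckeData L ψ S abar) (hn : H.HasNewforms)
    (hS : ∀ q : ℕ, q.Prime → q ∣ L → q ∈ S) (θK : H.algebra →ₐ[O] KBar O) :
    Nonempty (Point p H θK.toRingHom) := by
  obtain ⟨ι₀⟩ := GaloisReps.exists_padicHom O hp
  obtain ⟨e⟩ := RT.Glue.nonempty_ringEquiv_complex O ι₀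
  obtain ⟨etC, hroot, M, g, hg, hdvd, hsq, hcoef, hpart⟩ := hn (e.toRingHom.comp θK.toRingHom)
  have : NeZero M := ⟨fun h => pow_ne_zero 2 (NeZero.ne L) (Nat.eq_zero_of_zero_dvd (h ▸ hdvd))⟩
  have : Module.Finite ℤ (FullHecke M) := IntegralStructure.heckeAlgebra_finite M 2 ∅
  have : Module.Finite ℤ (MonoidAlgebra (FullHecke M) (ZMod L)ˣ) :=
    Module.Finite.trans (FullHecke M) _
  let etK : (ZMod L)ˣ →* KBar O :=
    { toFun := fun u => e.symm (etC u)
      map_one' := by rw [Units.val_one, map_one, map_one]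
      map_mul' := fun u v => by rw [Units.val_mul, map_mul, map_mul] }
  let Θ : MonoidAlgebra (FullHecke M) (ZMod L)ˣ →+* KBar O :=
    MonoidAlgebra.liftNCRingHom (e.symm.toRingHom.comp (ConductorLevel.eigenChar hg.1 ∅)) etK
      fun _ _ => Commute.all _ _
  obtain ⟨R, i1, i2, i3, i4, i5, i6, i7, i8, i9, j, Θ', -, hjinj, hcomm, hΘ'⟩ :=
    GaloisReps.exists_coeffExt O Θ
  have hpR : (p : R) ∈ maximalIdeal R := by
    rw [← map_natCast (algebraMap O R) p]
    exact map_nonunit (algebraMap O R) _ hp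
  obtain ⟨ι⟩ := GaloisReps.exists_padicHom R hpR
  have hlink : ∀ t, e (j (Θ'.comp MonoidAlgebra.singleOneRingHom t)) =
      ConductorLevel.eigenChar hg.1 ∅ t := fun t => by
    rw [RingHom.comp_apply, ← RingHom.comp_apply j Θ', hΘ']
    simp [Θ, MonoidAlgebra.liftNCRingHom]
  have het : ∀ u : (ZMod L)ˣ,
      j (Θ'.toMonoidHom.comp (MonoidAlgebra.of (FullHecke M) (ZMod L)ˣ) u) = e.symm (etC u) :=
    fun u => by
      show j (Θ' (MonoidAlgebra.of (FullHecke M) (ZMod L)ˣ u)) = _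
      rw [← RingHom.comp_apply j Θ', hΘ']
      simp [Θ, MonoidAlgebra.liftNCRingHom, etK]
  have htriv : ∀ v : ℕ, (∀ u : (ZMod L)ˣ, ((u : ZMod L).cast : ZMod (L / v)) = 1 →
      θK (diaA H (ψ u)) = 1) → IsTrivialAt (H.nebChar (e.toRingHom.comp θK.toRingHom)) v :=
    fun v h u hu => by
      rw [nebChar_apply, RingHom.comp_apply]
      exact (congrArg e (h u hu)).trans (map_one e)
  refine ⟨{
    M := M
    g := g
    isNewform := hg
    dvd := hdvd
    R := R
    j := j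
    j_injective := hjinj
    j_algebraMap := hcomm
    p_mem := hpR
    ι := ι
    θ' := Θ'.comp MonoidAlgebra.singleOneRingHom
    emb := e
    emb_θ' := hlink
    et := Θ'.toMonoidHom.comp (MonoidAlgebra.of (FullHecke M) (ZMod L)ˣ)
    etC := etC
    emb_et := fun u => by rw [het, e.apply_symm_apply]
    isRoot := hroot
    value := fun {ℓ} hℓ hℓS u hu => e.injective ?_
    et_sq := fun u => e.injective ?_
    et_eq_one := fun v hv hvL h u hu => hjinj ?_
    not_sq_dvd := fun v hv hvL h => hsq v hv hvL (htriv v h)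
    partialTwist := hpart }⟩
  · have hℓM : ¬ ℓ ∣ M := fun h =>
      hℓS (hS ℓ hℓ (hℓ.dvd_of_dvd_pow (h.trans hdvd)))
    have hv := hcoef ℓ hℓ hℓS
    rw [system_apply H _ hℓ hℓS] at hv
    rw [map_mul, hlink, het, e.apply_symm_apply, HeckeDuality.heckeOp, dif_neg hℓM,
      ConductorLevel.eigenChar_T hg.1 hℓ hℓM, hu]
    exact hv.symm
  · rw [map_pow, het, e.apply_symm_apply, ← MulChar.pow_apply_coe, hroot.sq, nebChar_apply]
    rfl
  · rw [het, hroot.trivialAt v hv hvL (htriv v h) u hu, map_one, map_one]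

section Rep

variable [NeZero L] {H : HeckeData L ψ S abar} {θK : H.algebra →+* KBar O}
  (D : ∀ (M : ℕ) [NeZero M], HeckeGaloisModel M p) (P : Point p H θK)

/-- The twisted representation over the coefficient ring. -/
def Point.twistMat : AbsGal →* Matrix (Fin 2) (Fin 2) P.R where
  toFun σ := P.et (cycHom L σ) • (D P.M).eigenMatrix P.ι P.θ' σ
  map_one' := by
    rw [map_one, map_one, one_smul, GaloisReps.HeckeGaloisModel.eigenMatrix, map_one,
      LinearMap.toMatrix_one]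
  map_mul' σ τ := by
    rw [map_mul, map_mul, smul_mul_smul_comm]
    congr 1
    simp only [GaloisReps.HeckeGaloisModel.eigenMatrix, map_mul, LinearMap.toMatrix_mul]

/-- The representation over the algebraic closure. -/
def Point.rep : AbsGal →* Matrix (Fin 2) (Fin 2) (KBar O) :=
  (P.j.mapMatrix (m := Fin 2)).toMonoidHom.comp (P.twistMat D)

theorem Point.rep_apply (σ : AbsGal) :
    P.rep D σ = P.j (P.et (cycHom L σ)) • ((D P.M).eigenMatrix P.ι P.θ' σ).map P.j := by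
  refine Matrix.ext fun a b => ?_
  show P.j ((P.et (cycHom L σ) • (D P.M).eigenMatrix P.ι P.θ' σ) a b) = _
  rw [Matrix.smul_apply, Matrix.smul_apply, smul_eq_mul, smul_eq_mul, map_mul, Matrix.map_apply]

theorem Point.trace_rep (σ : AbsGal) : (P.rep D σ).trace = P.j (P.et (cycHom L σ)) *
    P.j (LinearMap.trace P.R _ ((D P.M).eigenAction P.ι P.θ' σ)) := by
  rw [P.rep_apply D, Matrix.trace_smul, smul_eq_mul,
    LinearMap.trace_eq_matrix_trace P.R ((D P.M).eigenBasis P.θ'), AddMonoidHom.map_trace P.j]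
  rfl

theorem Point.det_rep (σ : AbsGal) : (P.rep D σ).det = θK (diaA H (ψ (cycHom L σ))) *
    P.j (LinearMap.det ((D P.M).eigenAction P.ι P.θ' σ)) := by
  rw [P.rep_apply D, Matrix.det_smul, Fintype.card_fin, P.et_sq,
    ← LinearMap.det_toMatrix ((D P.M).eigenBasis P.θ'), ← RingHom.mapMatrix_apply,
    ← RingHom.map_det]
  rfl

/-- An element acting trivially on the model and on the `L`-th roots of unity acts trivially. -/
theorem Point.rep_eq_one {σ : AbsGal} (h : (D P.M).gal σ = 1) (hc : cycHom L σ = 1) :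
    P.rep D σ = 1 := by
  have h1 : (D P.M).eigenAction P.ι P.θ' σ = 1 := by
    refine LinearMap.ext fun v => Subtype.ext ?_
    rw [GaloisReps.HeckeGaloisModel.coe_eigenAction, h,
      Matrix.map_one P.ι (map_zero P.ι) (map_one P.ι), Matrix.one_mulVec, Module.End.one_apply]
  rw [P.rep_apply D, hc, map_one, map_one, one_smul, GaloisReps.HeckeGaloisModel.eigenMatrix, h1,
    LinearMap.toMatrix_one, Matrix.map_one P.j (map_zero P.j) (map_one P.j)]

/-- The representation of the newform. -/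
def Point.adicRep : GaloisRepAdic P.R := (D P.M).rep P.ι P.θ' P.p_mem

/-- The traces of the powers of a Frobenius element. -/
theorem Point.trace_frobenius_pow (hS : ∀ q : ℕ, q.Prime → q ∣ L → q ∈ S) (hpS : p ∈ S) {ℓ : ℕ}
    (hℓ : ℓ.Prime) (hℓS : ℓ ∉ S) {A : ValuationSubring (AlgebraicClosure ℚ)}
    (hA : A.LiesOverPrime ℓ) {s : AbsGal} (hs : A.IsFrobeniusAt s ℓ) (i : ℕ) :
    (P.rep D (s ^ i)).trace = θK (powerTrace (TA H hℓ hℓS) (dA H hS hℓ hℓS) i) := by
  have hℓM : ¬ ℓ ∣ P.M * p := fun h => (hℓ.dvd_mul.1 h).elim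
    (fun h => hℓS (hS ℓ hℓ (hℓ.dvd_of_dvd_pow (h.trans P.dvd))))
    (fun h => hℓS (by rw [(Nat.prime_dvd_prime_iff_eq hℓ Fact.out).1 h]; exact hpS))
  have hcop := coprime_of_notMem hS hℓ hℓS
  rw [P.trace_rep D, map_pow (cycHom L), cycHom_frobenius hℓ hcop hA hs, map_pow P.et,
    map_pow P.j, map_pow ((D P.M).eigenAction P.ι P.θ'), GaloisReps.trace_pow_of_charpoly
    ((D P.M).finrank_eigenspace_domain P.θ') _ _ ℓ
    ((D P.M).charpoly_eigenAction_frobenius P.ι P.θ' GaloisReps.frobeniusDensity P.p_mem hℓ hℓM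
      hA hs) i, GaloisReps.map_powerTrace, GaloisReps.map_powerTrace, map_natCast,
    mul_powerTrace_twist, P.value hℓ hℓS _ (ZMod.coe_unitOfCoprime ℓ hcop), P.et_sq, dA,
    map_mul θK, map_natCast]

end Rep

end Fermat.Agent.TwoAdic.Module
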