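import Fermat.Agent.TwoAdic.Module.Interface
import Fermat.Agent.Deform.Basic
import Fermat.Prelude.Thm_IsLocalRing_isAdicComplete_of_module_finite

/-!
# The Hecke algebra of a `HeckeData` is local, complete and finite free
-/

set_option autoImplicit false

noncomputable section

open IsLocalRing

namespace Fermat.Agent.TwoAdic.Module

variable {O : Type} [CommRing O] [IsDomain O] [IsDiscreteValuationRing O]
  {L : ℕ} {Δ : Type} [CommGroup Δ] {ψ : (ZMod L)ˣ →* Δ} {S : Finset ℕ}
  {abar : ℕ → ResidueField O}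

instance (H : HeckeData L ψ S abar) [Finite Δ] : Module.Free O H.M :=
  Module.Free.of_equiv (LinearEquiv.ofBijective
    (Finsupp.linearCombination O fun iδ : Fin H.d × Δ => H.dia iδ.2 (H.basis iδ.1))
    H.basis_bijective)

instance (H : HeckeData L ψ S abar) [Finite Δ] : Module.Finite O H.M :=
  Module.Finite.equiv (LinearEquiv.ofBijective
    (Finsupp.linearCombination O fun iδ : Fin H.d × Δ => H.dia iδ.2 (H.basis iδ.1))
    H.basis_bijective)

instance (H : HeckeData L ψ S abar) [Finite Δ] : Module.Finite O H.algebra :=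
  Module.Finite.of_injective H.algebra.val.toLinearMap Subtype.val_injective

instance (H : HeckeData L ψ S abar) [Finite Δ] : Module.Free O H.algebra :=
  have : Module.IsTorsionFree O H.algebra :=
    Function.Injective.moduleIsTorsionFree (fun x : H.algebra => (x : Module.End O H.M))
      Subtype.val_injective fun _ _ => rfl
  Module.free_of_finite_type_torsion_free'

instance (H : HeckeData L ψ S abar) : IsMulCommutative H.algebra :=
  Algebra.isMulCommutative_adjoin O <| by
    rintro x (⟨δ, rfl⟩ | ⟨ℓ, -, rfl⟩) y (⟨δ', rfl⟩ | ⟨ℓ', -, rfl⟩)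
    · show Commute (H.dia δ) (H.dia δ')
      rw [commute_iff_eq, ← map_mul, ← map_mul, mul_comm]
    · exact (H.dia_comm ℓ' δ).symm
    · exact H.dia_comm ℓ δ'
    · exact H.T_comm ℓ ℓ'

open scoped IsMulCommutative in
instance (H : HeckeData L ψ S abar) : CommRing H.algebra := inferInstance

/-- The diamond operator in the Hecke algebra. -/
def diaA (H : HeckeData L ψ S abar) : Δ →* H.algebra where
  toFun δ := ⟨H.dia δ, Algebra.subset_adjoin (Or.inl ⟨δ, rfl⟩)⟩
  map_one' := Subtype.ext (map_one H.dia)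
  map_mul' δ δ' := Subtype.ext (map_mul H.dia δ δ')

/-- The Hecke operator at `ℓ ∉ S` in the Hecke algebra. -/
def TA (H : HeckeData L ψ S abar) {ℓ : ℕ} (hℓ : ℓ.Prime) (hℓS : ℓ ∉ S) : H.algebra :=
  ⟨H.T ℓ, Algebra.subset_adjoin (Or.inr ⟨ℓ, ⟨hℓ, hℓS⟩, rfl⟩)⟩

section Residue

variable [Finite Δ] (H : HeckeData L ψ S abar)

/-- The elements mapping `M` into `m M`. -/
def kerMod : Ideal H.algebra where
  carrier := {x | ∀ m : H.M, (x : Module.End O H.M) m ∈ maximalIdeal O • (⊤ : Submodule O H.M)}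
  add_mem' {x y} hx hy m := Submodule.add_mem _ (hx m) (hy m)
  zero_mem' m := Submodule.zero_mem _
  smul_mem' c x hx m := by
    show (((c * x : H.algebra) : Module.End O H.M)) m ∈ _
    rw [Subalgebra.coe_mul, Module.End.mul_apply]
    refine Submodule.smul_induction_on (hx m) (fun a ha w _ => ?_) fun u v hu hv => ?_
    · rw [map_smul]; exact Submodule.smul_mem_smul ha Submodule.mem_top
    · rw [map_add]; exact Submodule.add_mem _ hu hv

theorem mem_kerMod {x : H.algebra} : x ∈ kerMod H ↔
    ∀ m : H.M, (x : Module.End O H.M) m ∈ maximalIdeal O • (⊤ : Submodule O H.M) := Iff.rfl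

theorem algebraMap_mem_kerMod {a : O} (ha : a ∈ maximalIdeal O) :
    algebraMap O H.algebra a ∈ kerMod H := fun m => by
  rw [Subalgebra.coe_algebraMap, Module.algebraMap_end_apply]
  exact Submodule.smul_mem_smul ha Submodule.mem_top

/-- `x` is congruent to the scalar `a` up to a nilpotent modulo `kerMod`. -/
def IsScalarMod (x : H.algebra) (a : O) : Prop :=
  IsNilpotent (Ideal.Quotient.mk (kerMod H) (x - algebraMap O H.algebra a))

variable {p : ℕ} [Fact p.Prime] (hp : (p : O) ∈ maximalIdeal O) (hΔ : IsPGroup p Δ)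

include hp hΔ in
theorem exists_isScalarMod (x : H.algebra) : ∃ a : O, IsScalarMod H x a := by
  obtain ⟨x, hx⟩ := x
  induction hx using Algebra.adjoin_induction with
  | mem y hy =>
    rcases hy with ⟨δ, rfl⟩ | ⟨ℓ, ⟨hℓ, hℓS⟩, rfl⟩
    · obtain ⟨k, hk⟩ := hΔ δ
      refine ⟨1, p ^ k, ?_⟩
      rw [map_sub, map_one, map_one]
      have : CharP (H.algebra ⧸ kerMod H) p ∨ (1 : H.algebra ⧸ kerMod H) = 0 := by
        by_cases h1 : (1 : H.algebra ⧸ kerMod H) = 0
        · exact Or.inr h1
        · refine Or.inl ?_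
          have : Nontrivial (H.algebra ⧸ kerMod H) := ⟨⟨1, 0, h1⟩⟩
          refine (CharP.charP_iff_prime_eq_zero Fact.out).2 ?_
          rw [← map_natCast (Ideal.Quotient.mk (kerMod H)), Ideal.Quotient.eq_zero_iff_mem,
            ← map_natCast (algebraMap O H.algebra)]
          exact algebraMap_mem_kerMod H hp
      rcases this with hc | h1
      · rw [sub_pow_char_pow, one_pow, sub_eq_zero, ← map_pow]
        have : (⟨H.dia δ, Algebra.subset_adjoin (Or.inl ⟨δ, rfl⟩)⟩ : H.algebra) ^ p ^ k = 1 :=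
          (map_pow (diaA H) δ (p ^ k)).symm.trans (by rw [hk, map_one])
        rw [this, map_one]
      · rw [← mul_one ((_ : H.algebra ⧸ kerMod H) ^ _), h1, mul_zero]
    · obtain ⟨a, ha⟩ := residue_surjective (R := O) (abar ℓ)
      obtain ⟨n, hn⟩ := H.residual ℓ hℓ hℓS a ha
      refine ⟨a, n, ?_⟩
      rw [← map_pow, Ideal.Quotient.eq_zero_iff_mem]
      intro m
      rw [SubmonoidClass.coe_pow, AddSubgroupClass.coe_sub, Subalgebra.coe_algebraMap,
        Algebra.algebraMap_eq_smul_one]
      exact hn m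
  | algebraMap r =>
    refine ⟨r, 1, ?_⟩
    rw [pow_one]
    convert map_zero (Ideal.Quotient.mk (kerMod H))
    exact sub_eq_zero.2 (Subtype.ext rfl)
  | add y z hy hz iy iz =>
    obtain ⟨a, ha⟩ := iy
    obtain ⟨b, hb⟩ := iz
    refine ⟨a + b, ?_⟩
    have e : (⟨y + z, add_mem hy hz⟩ : H.algebra) - algebraMap O H.algebra (a + b) =
        (⟨y, hy⟩ - algebraMap O H.algebra a) + (⟨z, hz⟩ - algebraMap O H.algebra b) := by
      rw [map_add, show (⟨y + z, add_mem hy hz⟩ : H.algebra) = ⟨y, hy⟩ + ⟨z, hz⟩ from rfl]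
      abel
    unfold IsScalarMod
    rw [e, map_add]
    exact (Commute.all _ _).isNilpotent_add ha hb
  | mul y z hy hz iy iz =>
    obtain ⟨a, ha⟩ := iy
    obtain ⟨b, hb⟩ := iz
    refine ⟨a * b, ?_⟩
    have e : (⟨y * z, mul_mem hy hz⟩ : H.algebra) - algebraMap O H.algebra (a * b) =
        (⟨y, hy⟩ - algebraMap O H.algebra a) * ⟨z, hz⟩ +
          algebraMap O H.algebra a * (⟨z, hz⟩ - algebraMap O H.algebra b) := by
      rw [map_mul, show (⟨y * z, mul_mem hy hz⟩ : H.algebra) = ⟨y, hy⟩ * ⟨z, hz⟩ from rfl]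
      ring
    unfold IsScalarMod
    rw [e, map_add, map_mul, map_mul]
    exact (Commute.all _ _).isNilpotent_add ((Commute.all _ _).isNilpotent_mul_right ha)
      ((Commute.all _ _).isNilpotent_mul_left hb)

theorem kerMod_le_maximal {P : Ideal H.algebra} [hP : P.IsMaximal] : kerMod H ≤ P := by
  intro x hx
  obtain ⟨q, hq, hdeg, hcoef, h0⟩ :=
    LinearMap.exists_monic_and_natDegree_eq_and_coeff_mem_pow_and_aeval_eq_zero O
      (I := maximalIdeal O) (x : Module.End O H.M) (by rintro _ ⟨m, rfl⟩; exact hx m)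
  have hcomap : P.comap (algebraMap O H.algebra) = maximalIdeal O :=
    eq_maximalIdeal (Ideal.isMaximal_comap_of_isIntegral_of_isMaximal P)
  refine hP.isPrime.mem_of_pow_mem q.natDegree ?_
  have h1 : Polynomial.aeval x q = 0 := Subtype.ext <|
    (Polynomial.aeval_algHom_apply H.algebra.val x q).symm.trans h0
  rw [Polynomial.aeval_eq_sum_range, Finset.sum_range_succ, hq.coeff_natDegree, one_smul,
    add_eq_zero_iff_eq_neg'] at h1
  rw [h1]
  refine P.neg_mem (P.sum_mem fun i hi => ?_)
  rw [Algebra.smul_def]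
  refine P.mul_mem_right _ ?_
  rw [← Ideal.mem_comap, hcomap]
  exact Ideal.pow_le_self (by have := Finset.mem_range.1 hi; omega) (hcoef i)

include hp hΔ in
theorem mem_maximal_iff {P : Ideal H.algebra} [hP : P.IsMaximal] {x : H.algebra} {a : O}
    (ha : IsScalarMod H x a) : x ∈ P ↔ a ∈ maximalIdeal O := by
  obtain ⟨n, hn⟩ := ha
  rw [← map_pow, Ideal.Quotient.eq_zero_iff_mem] at hn
  have h1 : x - algebraMap O H.algebra a ∈ P :=
    hP.isPrime.mem_of_pow_mem n (kerMod_le_maximal H hn)
  have hcomap : P.comap (algebraMap O H.algebra) = maximalIdeal O :=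
    eq_maximalIdeal (Ideal.isMaximal_comap_of_isIntegral_of_isMaximal P)
  rw [← hcomap, Ideal.mem_comap]
  exact ⟨fun h => by simpa using P.sub_mem h h1, fun h => by simpa using P.add_mem h1 h⟩

include hp hΔ in
theorem nontrivial_algebra (hd : 0 < H.d) : Nontrivial H.algebra := by
  refine ⟨⟨0, 1, fun h => ?_⟩⟩
  have h1 : ∀ m : H.M, m = 0 := fun m => by
    have := LinearMap.congr_fun (congrArg Subtype.val h) m
    simpa using this.symm
  have := H.basis_bijective.1 (a₁ := Finsupp.single (⟨0, hd⟩, 1) (1 : O)) (a₂ := 0)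
    ((h1 _).trans (h1 _).symm)
  exact one_ne_zero ((Finsupp.single_eq_same).symm.trans (by rw [this]; rfl) : (1 : O) = 0)

include hp hΔ in
theorem isLocalRing_algebra (hd : 0 < H.d) : IsLocalRing H.algebra := by
  have := nontrivial_algebra H hp hΔ hd
  obtain ⟨P, hP⟩ := Ideal.exists_maximal H.algebra
  refine IsLocalRing.of_unique_max_ideal ⟨P, hP, fun Q hQ => Ideal.ext fun x => ?_⟩
  obtain ⟨a, ha⟩ := exists_isScalarMod H hp hΔ x
  rw [mem_maximal_iff H hp hΔ ha, mem_maximal_iff H hp hΔ ha]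

variable [IsLocalRing H.algebra]

include hp hΔ in
theorem isLocalHom_algebraMap : IsLocalHom (algebraMap O H.algebra) := by
  refine ⟨fun a ha => by_contra fun h => ?_⟩
  have hm : a ∈ maximalIdeal O := h
  exact (maximalIdeal.isMaximal H.algebra).ne_top
    (Ideal.eq_top_of_isUnit_mem _ (kerMod_le_maximal H (algebraMap_mem_kerMod H hm)) ha)

include hp hΔ in
theorem residue_algebraMap_surjective :
    Function.Surjective (residue H.algebra ∘ algebraMap O H.algebra) := by
  intro y
  obtain ⟨x, rfl⟩ := residue_surjective y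
  obtain ⟨a, ha⟩ := exists_isScalarMod H hp hΔ x
  refine ⟨a, (sub_eq_zero.1 ?_).symm⟩
  show residue H.algebra x - residue H.algebra (algebraMap O H.algebra a) = 0
  rw [← map_sub, residue_eq_zero_iff]
  refine (mem_maximal_iff H hp hΔ (a := 0) ?_).2 (zero_mem _)
  unfold IsScalarMod at ha ⊢
  rwa [map_zero, sub_zero]

include hp hΔ in
theorem residue_TA {ℓ : ℕ} (hℓ : ℓ.Prime) (hℓS : ℓ ∉ S) {a : O} (ha : residue O a = abar ℓ) :
    residue H.algebra (TA H hℓ hℓS) = residue H.algebra (algebraMap O H.algebra a) := by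
  rw [← sub_eq_zero, ← map_sub, residue_eq_zero_iff]
  obtain ⟨n, hn⟩ := H.residual ℓ hℓ hℓS a ha
  refine (maximalIdeal.isMaximal H.algebra).isPrime.mem_of_pow_mem n (kerMod_le_maximal H ?_)
  intro m
  rw [SubmonoidClass.coe_pow, AddSubgroupClass.coe_sub, Subalgebra.coe_algebraMap,
    Algebra.algebraMap_eq_smul_one]
  exact hn m

include hp hΔ in
theorem residue_diaA (δ : Δ) : residue H.algebra (diaA H δ) = 1 := by
  obtain ⟨k, hk⟩ := hΔ δ
  have := isLocalHom_algebraMap H hp hΔ
  have : CharP (ResidueField H.algebra) p := by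
    refine (CharP.charP_iff_prime_eq_zero Fact.out).2 ?_
    rw [← map_natCast (residue H.algebra), residue_eq_zero_iff,
      ← map_natCast (algebraMap O H.algebra)]
    exact map_nonunit (algebraMap O H.algebra) _ hp
  refine sub_eq_zero.1 (eq_zero_of_pow_eq_zero (n := p ^ k) ?_)
  rw [sub_pow_char_pow, one_pow, sub_eq_zero, ← map_pow, ← map_pow, hk, map_one, map_one]

include hp hΔ in
/-- The Hecke algebra has the residue field of `O`. -/
theorem isResAlg_algebra : Deform.IsResAlg O H.algebra :=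
  ⟨isLocalHom_algebraMap H hp hΔ, residue_algebraMap_surjective H hp hΔ⟩

theorem isAdicComplete_algebra [IsAdicComplete (maximalIdeal O) O]
    [IsLocalHom (algebraMap O H.algebra)] : IsAdicComplete (maximalIdeal H.algebra) H.algebra :=
  IsLocalRing.isAdicComplete_of_module_finite (𝒪 := O)

end Residue

end Fermat.Agent.TwoAdic.Module
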