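import Fermat.Agent.TwoAdic.Module.Glue.Approx
import Fermat.Agent.TwoAdic.Module.GlueDet
import Fermat.Agent.RT.Glue.Rep

/-!
# The representation over the Hecke algebra of a `HeckeData`

The pointwise representations come from one matrix representation with the given residual
representation; its determinant is the cyclotomic character times the diamond character.
-/

set_option autoImplicit false

noncomputable section

open IsLocalRing Module Polynomial

namespace Fermat.Agent.TwoAdic.Module

open GaloisReps (AbsGal HeckeGaloisModel)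
open RT.Glue (exists_glue_of_det span_range_eq_top)

variable {O : Type} [CommRing O] [IsDomain O] [IsDiscreteValuationRing O]
  [IsAdicComplete (maximalIdeal O) O] [Finite (ResidueField O)] [CharZero O]
  {p : ℕ} [Fact p.Prime]
  {L : ℕ} [NeZero L] {Δ : Type} [CommGroup Δ] [Finite Δ] {ψ : (ZMod L)ˣ →* Δ} {S : Finset ℕ}
  {abar : ℕ → ResidueField O} {H : HeckeData L ψ S abar}

/-- A matrix representation over the Hecke algebra with given reduction `rb`, restricting to the
twisted representation of the newform at every point. -/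
structure Glued [IsLocalRing H.algebra] [IsLocalHom (algebraMap O H.algebra)]
    (D : ∀ (M : ℕ) [NeZero M], HeckeGaloisModel M p)
    (pt : ∀ θ : H.algebra →ₐ[O] KBar O, Point p H θ.toRingHom)
    (rb : AbsGal →* Matrix (Fin 2) (Fin 2) (ResidueField O)) where
  R : AbsGal →* Deform.M2 H.algebra
  cont : Deform.IsCont R
  residual : ∀ σ, (R σ).map (residue H.algebra) =
    (rb σ).map (ResidueField.map (algebraMap O H.algebra))
  trace_eq : ∀ (θ : H.algebra →ₐ[O] KBar O) σ, θ (R σ).trace = ((pt θ).rep D σ).trace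
  det_eq : ∀ (θ : H.algebra →ₐ[O] KBar O) σ, θ (R σ).det = ((pt θ).rep D σ).det
  map_eq_one : ∀ (θ : H.algebra →ₐ[O] KBar O) σ,
    (R σ).map θ = 1 ↔ (pt θ).rep D σ = 1
  det_congr : ∀ (n : ℕ) (σ : AbsGal) (a : ℕ),
    (∀ μ : AlgebraicClosure ℚ, μ ^ p ^ n = 1 → σ μ = μ ^ a) →
      (R σ).det - diaA H (ψ (cycHom L σ)) * a ∈ Ideal.span {(p : H.algebra) ^ n}
  span_eq_top : Submodule.span H.algebra (Set.range R) = ⊤

variable (hp : (p : O) ∈ maximalIdeal O) (hΔ : IsPGroup p Δ) (hpS : p ∈ S)
  (hS : ∀ q : ℕ, q.Prime → q ∣ L → q ∈ S)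
  {rb : AbsGal →* Matrix (Fin 2) (Fin 2) (ResidueField O)}
  (hbar : HasFrobData S abar rb) (hfin : GaloisFactorsThroughFiniteLevel rb)
  (hspan : Submodule.span (ResidueField O) (Set.range rb) = ⊤)
  [IsLocalRing H.algebra] [IsLocalHom (algebraMap O H.algebra)]
  (D : ∀ (M : ℕ) [NeZero M], HeckeGaloisModel M p)
  (pt : ∀ θ : H.algebra →ₐ[O] KBar O, Point p H θ.toRingHom)

set_option maxHeartbeats 1000000 in
include hp hΔ hpS hS hbar hfin hspan in
/-- The glued representation exists. -/
theorem exists_glued : Nonempty (Glued D pt rb) := by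
  classical
  have := isAdicComplete_algebra H
  choose tA htA htres using exists_trace hp hΔ hS D pt hpS hbar hfin
  choose c hc hc' using exists_det hp hΔ D pt
  set φ := ResidueField.map (algebraMap O H.algebra)
  let rbar : AbsGal →* Deform.M2 (ResidueField H.algebra) := Deform.mapM φ rb
  have hrbar : ∀ σ, rbar σ = (rb σ).map φ := fun σ => rfl
  have hres : ∀ σ, (rbar σ).trace = residue H.algebra (tA σ) := fun σ => by
    rw [htres, hrbar, AddMonoidHom.map_trace φ]
  have hresdet : ∀ σ, (rbar σ).det = residue H.algebra (c σ) := fun σ => by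
    obtain ⟨a, ha⟩ := exists_exponent (p := p) σ 1
    have h1 : residue H.algebra (c σ - diaA H (ψ (cycHom L σ)) * a) = 0 := by
      rw [residue_eq_zero_iff]
      refine (Ideal.span_singleton_le_iff_mem _).2 ?_ (hc' σ 1 a ha)
      rw [pow_one]
      exact natCast_mem hp hΔ
    rw [map_sub, map_mul, residue_diaA H hp hΔ, one_mul, map_natCast, sub_eq_zero] at h1
    rw [h1, hrbar, ← RingHom.mapMatrix_apply, ← RingHom.map_det,
      det_residual_eq hp hpS hbar hfin ha, map_natCast]
  have hspan' : Submodule.span (ResidueField H.algebra) (Set.range rbar) = ⊤ := by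
    refine eq_top_iff.2 fun X _ => ?_
    have hφ : Function.Surjective φ := fun y => by
      obtain ⟨a, rfl⟩ := residue_algebraMap_surjective H hp hΔ y
      exact ⟨residue O a, ResidueField.map_residue _ _⟩
    choose f hf using hφ
    rw [show X = (X.map f).map φ by ext i j; exact (hf _).symm]
    have hY : X.map f ∈ Submodule.span (ResidueField O) (Set.range rb) := by
      rw [hspan]; trivial
    generalize X.map f = Y at hY ⊢
    induction hY using Submodule.span_induction with
    | mem Y hY => obtain ⟨σ, rfl⟩ := hY; exact Submodule.subset_span ⟨σ, hrbar σ⟩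
    | zero => rw [Matrix.map_zero _ (map_zero φ)]; exact zero_mem _
    | add Y Z _ _ hY hZ => rw [Matrix.map_add _ (map_add φ)]; exact add_mem hY hZ
    | smul a Y _ hY =>
      rw [show (a • Y).map φ = φ a • Y.map φ from
        Matrix.ext fun i j => by simp [Matrix.map_apply]]
      exact Submodule.smul_mem _ _ hY
  have : CharZero (KBar O) := charZero_of_injective_algebraMap
    (R := FractionRing O) (algebraMap (FractionRing O) _).injective
  obtain ⟨R, hR, hRtr, hRdet, hRone, hRI⟩ := exists_glue_of_det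
    (fun _ : H.algebra →ₐ[O] KBar O => KBar O) (fun θ => θ.toRingHom)
    (fun θ => (pt θ).rep D) tA rbar (fun _ => two_ne_zero) c (fun θ σ => hc σ θ) hresdet
    (fun x hx => eq_zero_of_forall_point hx) (fun θ σ => htA σ θ) hres hspan'
  have hcont : Deform.IsCont R := by
    intro n
    obtain ⟨N, hN⟩ := exists_saturation_algebra (H := H) hp hΔ n
    obtain ⟨F, hF, hlev⟩ := exists_levelField (L := L) D N
    obtain ⟨F', hF', hcyc⟩ := cycHom_factors L
    refine ⟨F ⊔ F', inferInstance, fun σ hσ i j => ?_⟩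
    have hle : Ideal.span {(p : H.algebra) ^ n} ≤ maximalIdeal H.algebra ^ n :=
      (Ideal.span_singleton_le_iff_mem _).2 (Ideal.pow_mem_pow (natCast_mem hp hΔ) n)
    refine hle (hRI _ σ (fun g => hN _ fun θ => ?_) i j)
    have h1 : (((D (pt θ).M).gal (g⁻¹ * (σ * g))).map (PadicInt.toZModPow N)) = 1 := by
      have h : (PadicInt.toZModPow N).mapMatrix ((D (pt θ).M).gal σ) = 1 :=
        hlev σ (fun x hx => hσ x (le_sup_left (b := F') hx)) _ (pt θ).dvd
      show (PadicInt.toZModPow N).mapMatrix _ = 1
      rw [map_mul, map_mul, map_mul, map_mul, h, one_mul, ← map_mul, ← map_mul, inv_mul_cancel,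
        map_one, map_one]
    have h2 : cycHom L (g⁻¹ * (σ * g)) = 1 := by
      rw [map_mul, map_mul, hcyc σ fun x hx => hσ x (le_sup_right (a := F) hx), one_mul, map_inv,
        inv_mul_cancel]
    obtain ⟨r, hr, he⟩ := (pt θ).trace_congr D h1 h2
    exact ⟨r, hr, by rw [map_sub, ← htA, ← htA, he]⟩
  exact ⟨{
    R := R
    cont := hcont
    residual := fun σ => (hR σ).trans (hrbar σ)
    trace_eq := fun θ σ => by rw [hRtr, htA]
    det_eq := fun θ σ => by rw [hRdet, hc]
    map_eq_one := hRone
    det_congr := fun n σ a ha => by rw [hRdet]; exact hc' σ n a ha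
    span_eq_top := span_range_eq_top _ (by simpa only [hR] using hspan') }⟩

namespace Glued

variable {D pt} (G : Glued D pt rb)

omit [IsAdicComplete (maximalIdeal O) O] [Finite (ResidueField O)] [CharZero O] [Finite Δ] in
/-- The reduction is `rb`, through the augmentation. -/
theorem augment_apply (h : Deform.IsResAlg O H.algebra) (σ : AbsGal) (i j : Fin 2) :
    Deform.augment h (G.R σ i j) = rb σ i j := by
  refine (ResidueField.map (algebraMap O H.algebra)).injective ?_
  rw [Deform.map_augment h]
  exact congrFun (congrFun (G.residual σ) i) j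

omit [IsAdicComplete (maximalIdeal O) O] [Finite (ResidueField O)] [CharZero O] in
/-- A characteristic polynomial identity can be checked at the points. -/
theorem charpoly_eq {σ : AbsGal} {t d : H.algebra}
    (ht : ∀ θ, ((pt θ).rep D σ).trace = θ t) (hd : ∀ θ, ((pt θ).rep D σ).det = θ d) :
    (G.R σ).charpoly = X ^ 2 - C t * X + C d := by
  rw [Matrix.charpoly_fin_two]
  have h1 : (G.R σ).trace = t := sub_eq_zero.1 (eq_zero_of_forall_point fun θ => by
    rw [map_sub, G.trace_eq, ht, sub_self])
  have h2 : (G.R σ).det = d := sub_eq_zero.1 (eq_zero_of_forall_point fun θ => by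
    rw [map_sub, G.det_eq, hd, sub_self])
  rw [h1, h2]

omit [IsAdicComplete (maximalIdeal O) O] [Finite (ResidueField O)] [CharZero O] in
/-- An element acting trivially at every point acts trivially. -/
theorem eq_one {σ : AbsGal} (h : ∀ θ, (pt θ).rep D σ = 1) : G.R σ = 1 :=
  Matrix.ext fun i j => sub_eq_zero.1 (eq_zero_of_forall_point fun θ => by
    have h1 := congrFun (congrFun ((G.map_eq_one θ σ).2 (h θ)) i) j
    rw [Matrix.map_apply] at h1
    rw [map_sub, h1]
    rcases eq_or_ne i j with rfl | hij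
    · rw [Matrix.one_apply_eq, Matrix.one_apply_eq, map_one, sub_self]
    · rw [Matrix.one_apply_ne hij, Matrix.one_apply_ne hij, map_zero, sub_self])

omit [IsAdicComplete (maximalIdeal O) O] [Finite (ResidueField O)] [CharZero O] in
/-- The representation is unramified outside `L * p`. -/
theorem unramified {q : ℕ} (hq : q.Prime) (hqL : ¬ q ∣ L) (hqp : q ≠ p)
    {A : ValuationSubring (AlgebraicClosure ℚ)} (hA : A.LiesOverPrime q) {σ : AbsGal}
    (hσ : σ ∈ A.inertiaSubgroupIn ℚ) : G.R σ = 1 := by
  refine G.eq_one fun θ => (pt θ).rep_eq_one D ((D (pt θ).M).gal_unramified q hq ?_ A hA σ hσ)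
    (cycHom_inertia hq hqL hA hσ)
  intro h
  rcases hq.dvd_mul.1 h with h | h
  · exact hqL (hq.dvd_of_dvd_pow (h.trans (pt θ).dvd))
  · exact hqp ((Nat.prime_dvd_prime_iff_eq hq Fact.out).1 h)

omit [IsAdicComplete (maximalIdeal O) O] [Finite (ResidueField O)] [CharZero O] in
include hS hpS in
/-- The characteristic polynomial of Frobenius at `ℓ ∉ S`. -/
theorem charpoly_frobenius {ℓ : ℕ} (hℓ : ℓ.Prime) (hℓS : ℓ ∉ S)
    {A : ValuationSubring (AlgebraicClosure ℚ)} (hA : A.LiesOverPrime ℓ) {s : AbsGal}
    (hs : A.IsFrobeniusAt s ℓ) :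
    (G.R s).charpoly = X ^ 2 - C (TA H hℓ hℓS) * X + C (dA H hS hℓ hℓS) := by
  refine G.charpoly_eq (fun θ => ?_) fun θ => ?_
  · have h := (pt θ).trace_frobenius_pow D hS hpS hℓ hℓS hA hs 1
    rw [pow_one] at h
    exact h
  · have hdet : LinearMap.det ((D (pt θ).M).eigenAction (pt θ).ι (pt θ).θ' s) =
        (ℓ : (pt θ).R) :=
      (D (pt θ).M).det_eigenAction_of_roots _ _ (pt θ).p_mem
        fun n ζ hζ => GaloisReps.frobenius_apply_root hA hℓ hs hζ fun h => hℓS (by
          rw [(Nat.prime_dvd_prime_iff_eq hℓ Fact.out).1 (hℓ.dvd_of_dvd_pow h)]; exact hpS)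
    have hcast : (pt θ).j ((ℓ : (pt θ).R)) = θ.toRingHom ((ℓ : H.algebra)) :=
      (map_natCast (pt θ).j ℓ).trans (map_natCast θ.toRingHom ℓ).symm
    have hu : θ.toRingHom (diaA H (ψ (cycHom L s))) = θ.toRingHom (diaA H (ψ
        (ZMod.unitOfCoprime ℓ (coprime_of_notMem hS hℓ hℓS)))) :=
      congrArg (fun u => θ.toRingHom (diaA H (ψ u)))
        (cycHom_frobenius hℓ (coprime_of_notMem hS hℓ hℓS) hA hs)
    exact (((pt θ).det_rep D s).trans
      (congrArg₂ (· * ·) hu ((congrArg (pt θ).j hdet).trans hcast))).trans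
      (map_mul θ.toRingHom _ _).symm

end Glued

set_option maxHeartbeats 1000000 in
include hp hΔ hpS hS hbar hfin hspan in
/-- **The representation over the Hecke algebra.** -/
theorem exists_rep (hn : H.HasNewforms) :
    ∃ pt : ∀ θ : H.algebra →ₐ[O] KBar O, Point p H θ.toRingHom, Nonempty (Glued D pt rb) :=
  ⟨fun θ => (exists_point hp H hn hS θ).some, exists_glued hp hΔ hpS hS hbar hfin hspan D _⟩

end Fermat.Agent.TwoAdic.Module
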