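import Fermat.Agent.TwoAdic.Module.Glue.Rep
import Fermat.Agent.TwoAdic.Module.PointLocal

/-!
# The new part at a prime of the level, for `p = 2`

At a point whose nebentypus is trivial at `v ≠ 2` the newform is either old at `v` or the squared
trace of Frobenius at `v` is `(v + 1) ^ 2` times the nebentypus. An odd residual trace of Frobenius
excludes the second case. A point with trivial nebentypus avoiding it at a set `V` of primes
comes from a newform of level prime to `V`.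
-/

set_option autoImplicit false

noncomputable section

open IsLocalRing

namespace Fermat.Agent.TwoAdic.Module

open GaloisReps (AbsGal HeckeGaloisModel)
open NewformLocal (UnipotentAt ToricSquareAt)

/-- The semistable inputs at `v` for the levels dividing `L ^ 2`. -/
def SemistableInputs (D : ∀ (M : ℕ) [NeZero M], HeckeGaloisModel M 2) (L v : ℕ) : Prop :=
  ∀ (M : ℕ) [NeZero M], M ∣ L ^ 2 → v ∣ M → ¬ v ^ 2 ∣ M →
    UnipotentAt (D M) v ∧ ToricSquareAt (D M) v

variable {O : Type} [CommRing O] [IsDomain O] [IsDiscreteValuationRing O]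
  [IsAdicComplete (maximalIdeal O) O] [Finite (ResidueField O)] [CharZero O]
  {L : ℕ} [NeZero L] {Δ : Type} [CommGroup Δ] [Finite Δ] {ψ : (ZMod L)ˣ →* Δ} {S : Finset ℕ}
  {abar : ℕ → ResidueField O} {H : HeckeData L ψ S abar}
  [IsLocalRing H.algebra] [IsLocalHom (algebraMap O H.algebra)]
  {rb : AbsGal →* Matrix (Fin 2) (Fin 2) (ResidueField O)}
  {D : ∀ (M : ℕ) [NeZero M], HeckeGaloisModel M 2}
  {pt : ∀ θ : H.algebra →ₐ[O] KBar O, Point 2 H θ.toRingHom}

omit [IsAdicComplete (maximalIdeal O) O] [Finite (ResidueField O)] [CharZero O] [Finite Δ]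
  [NeZero L] [IsLocalRing H.algebra] [IsLocalHom (algebraMap O H.algebra)] in
theorem Point.eigen_trace_sq {θK : H.algebra →+* KBar O} (P : Point 2 H θK) {v : ℕ} (hv : v.Prime)
    (hv2 : v ≠ 2) (hvM : v ∣ P.M) (hU : UnipotentAt (D P.M) v) (hT : ToricSquareAt (D P.M) v)
    {A : ValuationSubring (AlgebraicClosure ℚ)} (hA : A.LiesOverPrime v) {φ : AbsGal}
    (hφ : A.IsFrobeniusAt φ v) :
    (LinearMap.trace P.R _ ((D P.M).eigenAction P.ι P.θ' φ)) ^ 2 = ((v : P.R) + 1) ^ 2 := by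
  rw [← trace_eigenHom]
  exact trace_sq_frobenius (D P.M) P.ι P.θ' P.isNewform (P.emb.toRingHom.comp P.j) P.emb_θ'
    (by simpa using P.p_mem) hv hv2 hvM hU hT hA hφ

variable (G : Glued D pt rb)

omit [IsAdicComplete (maximalIdeal O) O] [Finite (ResidueField O)] [CharZero O] [Finite Δ] in
/-- Old at `v`, or the squared trace of Frobenius is `(v + 1) ^ 2` times the nebentypus. -/
theorem Glued.trace_sq_of_trivial {v : ℕ} (hv : v.Prime) (hvL : v ∣ L) (hv2 : v ≠ 2)
    (hD : SemistableInputs D L v) (θ : H.algebra →ₐ[O] KBar O)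
    (hθ : ∀ u : (ZMod L)ˣ, ((u : ZMod L).cast : ZMod (L / v)) = 1 → θ (diaA H (ψ u)) = 1) :
    ¬ v ∣ (pt θ).M ∨ ∀ A : ValuationSubring (AlgebraicClosure ℚ), A.LiesOverPrime v →
      ∀ φ : AbsGal, A.IsFrobeniusAt φ v →
        θ (G.R φ).trace ^ 2 = ((v : KBar O) + 1) ^ 2 * θ (diaA H (ψ (cycHom L φ))) := by
  refine (em (v ∣ (pt θ).M)).symm.imp id fun hvM A hA φ hφ => ?_
  obtain ⟨hU, hT⟩ := hD _ (pt θ).dvd hvM ((pt θ).not_sq_dvd v hv hvL hθ)
  have h := congrArg (pt θ).j ((pt θ).eigen_trace_sq hv hv2 hvM hU hT hA hφ)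
  rw [map_pow, map_pow, map_add, map_natCast, map_one] at h
  rw [G.trace_eq, (pt θ).trace_rep D, mul_pow, h, (pt θ).et_sq, mul_comm]
  rfl

include G in
omit [IsAdicComplete (maximalIdeal O) O] [Finite (ResidueField O)] in
/-- An odd residual trace of Frobenius at `v` excludes the new part. -/
theorem Glued.not_dvd_of_residual (hp : (2 : O) ∈ maximalIdeal O) {v : ℕ} (hv : v.Prime)
    (hvL : v ∣ L) (hv2 : v ≠ 2) (hD : SemistableInputs D L v) (θ : H.algebra →ₐ[O] KBar O)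
    (hθ : ∀ u : (ZMod L)ˣ, ((u : ZMod L).cast : ZMod (L / v)) = 1 → θ (diaA H (ψ u)) = 1)
    {A : ValuationSubring (AlgebraicClosure ℚ)} (hA : A.LiesOverPrime v) {φ : AbsGal}
    (hφ : A.IsFrobeniusAt φ v) (htr : (rb φ).trace ≠ 0) : ¬ v ∣ (pt θ).M := by
  refine (G.trace_sq_of_trivial hv hvL hv2 hD θ hθ).resolve_right fun h => ?_
  have hres : residue H.algebra (G.R φ).trace ≠ 0 := by
    rw [AddMonoidHom.map_trace (residue H.algebra), G.residual, ← AddMonoidHom.map_trace]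
    exact (map_ne_zero _).2 htr
  obtain ⟨y, hy⟩ := (residue_ne_zero_iff_isUnit _).1 hres
  have h1 : θ (G.R φ).trace * θ (y⁻¹ : H.algebraˣ) = 1 := by
    rw [← map_mul, ← hy, Units.mul_inv, map_one]
  obtain ⟨m, hm⟩ : 2 ∣ v + 1 := by
    obtain ⟨k, hk⟩ := hv.odd_of_ne_two hv2
    exact ⟨k + 1, by omega⟩
  set r := (m : KBar O) ^ 2 * θ (diaA H (ψ (cycHom L φ))) * θ (y⁻¹ : H.algebraˣ) ^ 2
  have hr : IsIntegral O r :=
    (((isIntegral_natCast m).pow 2).mul (isIntegral_point θ _)).mul ((isIntegral_point θ _).pow 2)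
  have h4 : 4 * r = 1 := by
    have hh := congrArg (fun x => x * θ (y⁻¹ : H.algebraˣ) ^ 2) (h A hA φ hφ)
    simp only [← mul_pow, h1, one_pow] at hh
    rw [← Nat.cast_one, ← Nat.cast_add, hm, Nat.cast_one, Nat.cast_mul, Nat.cast_ofNat] at hh
    rw [hh]
    ring
  have h20 : (2 : O) ≠ 0 := two_ne_zero
  have hinj : Function.Injective (algebraMap O (KBar O)) := by
    rw [IsScalarTower.algebraMap_eq O (FractionRing O)]
    exact (algebraMap (FractionRing O) _).injective.comp (IsFractionRing.injective O _)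
  -- `1 / 2` would be integral over `O`
  set z : FractionRing O := (algebraMap O (FractionRing O) 2)⁻¹
  have hz : algebraMap (FractionRing O) (KBar O) z = 2 * r := by
    rw [map_inv₀, ← IsScalarTower.algebraMap_apply, map_ofNat]
    refine inv_eq_of_mul_eq_one_right ?_
    linear_combination h4
  have hzint : IsIntegral O z := by
    rw [← isIntegral_algebraMap_iff (algebraMap (FractionRing O) (KBar O)).injective, hz,
      ← map_ofNat (algebraMap O (KBar O))]
    exact isIntegral_algebraMap.mul hr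
  obtain ⟨o, ho⟩ := IsIntegrallyClosed.algebraMap_eq_of_integral hzint
  refine (mem_maximalIdeal _).1 hp (IsUnit.of_mul_eq_one o
    (IsFractionRing.injective O (FractionRing O) ?_))
  rw [map_mul, ho, map_one,
    mul_inv_cancel₀ fun h0 => h20 (IsFractionRing.injective O (FractionRing O) (by rw [h0, map_zero]))]

omit [IsAdicComplete (maximalIdeal O) O] [Finite (ResidueField O)] [CharZero O] [Finite Δ] in
/-- **The endgame.** A point with trivial nebentypus at which, at every `v ∈ V`, the squared trace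
of some Frobenius element is not `(v + 1) ^ 2` comes from a newform of level dividing `L` and
prime to `V`. -/
theorem Glued.exists_newform (hL : Squarefree L) (hS : ∀ q : ℕ, q.Prime → q ∣ L → q ∈ S)
    (θ : H.algebra →ₐ[O] KBar O) (hθ : ∀ u : (ZMod L)ˣ, θ (diaA H (ψ u)) = 1) {V : Set ℕ}
    (hV : ∀ v ∈ V, v.Prime ∧ v ∣ L ∧ v ≠ 2 ∧ SemistableInputs D L v ∧
      ∃ A : ValuationSubring (AlgebraicClosure ℚ), A.LiesOverPrime v ∧
        ∃ φ : AbsGal, A.IsFrobeniusAt φ v ∧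
          θ (G.R φ).trace ^ 2 ≠ ((v : KBar O) + 1) ^ 2) :
    ∃ (M : ℕ) (g : CuspForm (CongruenceSubgroup.Gamma0 M) 2), g.IsNewform ∧ M ∣ L ∧
      (∀ v ∈ V, ¬ v ∣ M) ∧
      ∃ e : KBar O ≃+* ℂ, ∀ (ℓ : ℕ) (hℓ : ℓ.Prime) (hℓS : ℓ ∉ S),
        e (θ (TA H hℓ hℓS)) = ModularFormClass.qCoeff g ℓ := by
  have hM2 : ∀ v : ℕ, v.Prime → v ∣ L → ¬ v ^ 2 ∣ (pt θ).M := fun v hv hvL =>
    (pt θ).not_sq_dvd v hv hvL fun u _ => hθ u
  have hsq : Squarefree (pt θ).M := by
    refine Nat.squarefree_iff_prime_squarefree.2 fun v hv h => ?_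
    exact hM2 v hv (hv.dvd_of_dvd_pow (((dvd_mul_right v v).trans h).trans (pt θ).dvd))
      (by rwa [pow_two])
  refine ⟨(pt θ).M, (pt θ).g, (pt θ).isNewform, (hsq.dvd_pow_iff_dvd two_ne_zero).1 (pt θ).dvd,
    fun v hv => ?_, (pt θ).emb, fun ℓ hℓ hℓS => ?_⟩
  · obtain ⟨hvp, hvL, hv2, hD, A, hA, φ, hφ, hne⟩ := hV v hv
    refine (G.trace_sq_of_trivial hvp hvL hv2 hD θ fun u _ => hθ u).resolve_right fun h => hne ?_
    rw [h A hA φ hφ, hθ, mul_one]
  · set u := ZMod.unitOfCoprime ℓ (coprime_of_notMem hS hℓ hℓS)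
    have hℓM : ¬ ℓ ∣ (pt θ).M := fun h => hℓS (hS ℓ hℓ (hℓ.dvd_of_dvd_pow (h.trans (pt θ).dvd)))
    have het : (pt θ).etC = 1 := by
      refine RT.GammaH.eq_one_of_forall_ker hL _ fun v hv hvL w hw => ?_
      rw [← (pt θ).emb_et, (pt θ).et_eq_one v hv hvL (fun u' _ => hθ u') w
        ((RT.GammaH.unitsMap_eq_one_iff _ w).1 hw), map_one, map_one]
    have hval : θ (TA H hℓ hℓS) = (pt θ).j ((pt θ).et u) *
        (pt θ).j ((pt θ).θ' (HeckeDuality.heckeOp (pt θ).M 2 ℓ hℓ)) :=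
      ((pt θ).value hℓ hℓS u (ZMod.coe_unitOfCoprime ℓ _)).symm
    rw [hval, map_mul, (pt θ).emb_et, het, MulChar.one_apply_coe, one_mul, (pt θ).emb_θ',
      HeckeDuality.heckeOp, dif_neg hℓM,
      ConductorLevel.eigenChar_T (pt θ).isNewform.1 hℓ hℓM (Set.notMem_empty ℓ)]

end Fermat.Agent.TwoAdic.Module
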